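import Mathlib
import Fermat.Agent.ECVal.XLine

/-!
# Elliptic curves with split two-torsion: basic formulas

For a Weierstrass curve `W` over a field of characteristic `≠ 2` whose two-division polynomial
splits as `4 (x - e) (x - e') (x - e'')`, we record the basic formulas on the `x`-line.
-/

set_option autoImplicit false

namespace Fermat.Agent.Isog

open WeierstrassCurve WeierstrassCurve.Affine WeierstrassCurve.Affine.Point
open FermatAgent.ECVal

variable {F : Type*} [Field F] {W : Affine F}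

/-- The `x`-coordinate of a point (`0` at infinity). -/
def xc : W.Point → F
  | .zero => 0
  | .some x _ _ => x

/-- The function `η = 2 y + a₁ x + a₃` (`0` at infinity). -/
def eta : W.Point → F
  | .zero => 0
  | .some x y _ => 2 * y + W.a₁ * x + W.a₃

@[simp] lemma xc_some {x y : F} (h : W.Nonsingular x y) : xc (some x y h) = x := rfl
@[simp] lemma eta_some {x y : F} (h : W.Nonsingular x y) :
    eta (some x y h) = 2 * y + W.a₁ * x + W.a₃ := rfl
@[simp] lemma xc_zero : xc (0 : W.Point) = 0 := rfl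
@[simp] lemma eta_zero : eta (0 : W.Point) = 0 := rfl

@[simp] lemma xc_neg (P : W.Point) : xc (-P) = xc P := by
  cases P <;> rfl

@[simp] lemma eta_neg (P : W.Point) : eta (-P) = -eta P := by
  rcases P with _ | ⟨x, y, h⟩
  · change (0 : F) = - 0
    simp
  · rw [neg_some, eta_some, eta_some, negY]
    ring

lemma exists_some {P : W.Point} (hP : P ≠ 0) : ∃ x y h, P = some x y h := by
  rcases P with _ | ⟨x, y, h⟩
  · exact absurd rfl hP
  · exact ⟨x, y, h, rfl⟩

lemma eta_sq {P : W.Point} (hP : P ≠ 0) :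
    eta P ^ 2 = 4 * xc P ^ 3 + W.b₂ * xc P ^ 2 + 2 * W.b₄ * xc P + W.b₆ := by
  classical
  obtain ⟨x, y, h, rfl⟩ := exists_some hP
  exact psi2_sq h.1

/-- `W` has split two-torsion with `x`-coordinates `e, e', e''`. -/
structure Split (W : Affine F) (e e' e'' : F) : Prop where
  b₂ : W.b₂ = -4 * (e + e' + e'')
  b₄ : W.b₄ = 2 * (e * e' + e * e'' + e' * e'')
  b₆ : W.b₆ = -4 * (e * e' * e'')
  ne₁ : e ≠ e'
  ne₂ : e ≠ e''
  ne₃ : e' ≠ e''
  two : (2 : F) ≠ 0

namespace Split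

variable {e e' e'' : F}

lemma swap (h : Split W e e' e'') : Split W e' e e'' where
  b₂ := by rw [h.b₂]; ring
  b₄ := by rw [h.b₄]; ring
  b₆ := by rw [h.b₆]; ring
  ne₁ := h.ne₁.symm
  ne₂ := h.ne₃
  ne₃ := h.ne₂
  two := h.two

lemma rot (h : Split W e e' e'') : Split W e' e'' e where
  b₂ := by rw [h.b₂]; ring
  b₄ := by rw [h.b₄]; ring
  b₆ := by rw [h.b₆]; ring
  ne₁ := h.ne₃
  ne₂ := h.ne₁.symm
  ne₃ := h.ne₂.symm
  two := h.two

lemma swap' (h : Split W e e' e'') : Split W e e'' e' where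
  b₂ := by rw [h.b₂]; ring
  b₄ := by rw [h.b₄]; ring
  b₆ := by rw [h.b₆]; ring
  ne₁ := h.ne₂
  ne₂ := h.ne₁
  ne₃ := h.ne₃.symm
  two := h.two

lemma four (h : Split W e e' e'') : (4 : F) ≠ 0 := by
  have : (4 : F) = 2 * 2 := by norm_num
  rw [this]
  exact mul_ne_zero h.two h.two

lemma b₈ (h : Split W e e' e'') :
    W.b₈ = 4 * (e + e' + e'') * (e * e' * e'') - (e * e' + e * e'' + e' * e'') ^ 2 := by
  have h1 := W.b_relation
  rw [h.b₂, h.b₄, h.b₆] at h1
  apply mul_left_cancel₀ h.four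
  linear_combination h1

lemma eta_sq' (hs : Split W e e' e'') {P : W.Point} (hP : P ≠ 0) :
    eta P ^ 2 = 4 * ((xc P - e) * (xc P - e') * (xc P - e'')) := by
  rw [eta_sq hP, hs.b₂, hs.b₄, hs.b₆]
  ring

end Split

lemma eq_or_eq_neg_of_xc_eq {P Q : W.Point} (hP : P ≠ 0) (hQ : Q ≠ 0) (h : xc P = xc Q) :
    P = Q ∨ P = -Q := by
  obtain ⟨x, y, hxy, rfl⟩ := exists_some hP
  obtain ⟨x', y', hxy', rfl⟩ := exists_some hQ
  simp only [xc_some] at h
  subst h
  rcases Y_eq_of_X_eq hxy.1 hxy'.1 rfl with h | h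
  · left; subst h; rfl
  · right
    rw [neg_some]
    subst h; rfl

lemma xc_eq_iff {P Q : W.Point} (hP : P ≠ 0) (hQ : Q ≠ 0) :
    xc P = xc Q ↔ P = Q ∨ P = -Q := by
  refine ⟨eq_or_eq_neg_of_xc_eq hP hQ, ?_⟩
  rintro (rfl | rfl) <;> simp

section decEq

variable [DecidableEq F]

lemma add_self_eq_zero_iff {P : W.Point} (hP : P ≠ 0) : P + P = 0 ↔ eta P = 0 := by
  obtain ⟨x, y, h, rfl⟩ := exists_some hP
  rcases double_cases h with h1 | h1
  · simp [h1.1, h1.2]
  · obtain ⟨h1, α, α', hα, h2, -⟩ := h1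
    constructor
    · intro h3
      rw [h3] at h2
      exact absurd h2 (by intro h; cases h)
    · intro h3
      exact absurd h3 h1

variable {e e' e'' : F}

/-- Translation by the two-torsion point `T = (e, _)`. -/
lemma Split.add_two (hs : Split W e e' e'') {P T : W.Point} (hP : P ≠ 0) (hT : T ≠ 0)
    (hTe : xc T = e) (hη : eta T = 0) (hPT : xc P ≠ e) :
    P + T ≠ 0 ∧ (xc (P + T) - e) * (xc P - e) = (e - e') * (e - e'') := by
  obtain ⟨x, y, hxy, rfl⟩ := exists_some hP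
  obtain ⟨x', y', hxy', rfl⟩ := exists_some hT
  simp only [xc_some] at hTe hPT
  subst hTe
  obtain ⟨α, α', hα, h1, h2⟩ := exists_add_psi hxy hxy' hPT
  rw [h1]
  refine ⟨some_ne_zero _, ?_⟩
  simp only [xc_some, eta_some] at hη ⊢
  have h3 := hs.eta_sq' (P := some x y hxy) (some_ne_zero _)
  simp only [xc_some, eta_some] at h3
  rw [hη, sub_zero, h3, hs.b₂] at h2
  have h4 : x - x' ≠ 0 := sub_ne_zero.mpr hPT
  apply mul_left_cancel₀ (mul_ne_zero hs.four h4)
  linear_combination h2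

/-- The product formula. -/
lemma Split.key (hs : Split W e e' e'') {P Q : W.Point} (hP : P ≠ 0) (hQ : Q ≠ 0)
    (hx : xc P ≠ xc Q) :
    P + Q ≠ 0 ∧ P - Q ≠ 0 ∧
    (xc (P + Q) - e) * (xc (P - Q) - e) * (xc P - xc Q) ^ 2 =
      ((xc P - e) * (xc Q - e) - (e - e') * (e - e'')) ^ 2 := by
  obtain ⟨x, y, hxy, rfl⟩ := exists_some hP
  obtain ⟨x', y', hxy', rfl⟩ := exists_some hQ
  simp only [xc_some] at hx
  obtain ⟨α, α', β, β', hα, hβ, h1, h2, h3, h4⟩ := exists_add_sub hxy hxy' hx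
  rw [h1, h2]
  refine ⟨some_ne_zero _, some_ne_zero _, ?_⟩
  simp only [xc_some]
  rw [hs.b₂, hs.b₄, hs.b₆] at h3
  rw [hs.b₄, hs.b₆, hs.b₈] at h4
  linear_combination h4 - e * h3

/-- `T` is the two-torsion point with `x`-coordinate `e`. -/
structure IsTwo (T : W.Point) (e : F) : Prop where
  ne : T ≠ 0
  x : xc T = e
  eta : eta T = 0

lemma IsTwo.add_self {T : W.Point} (hT : IsTwo T e) : T + T = 0 :=
  (add_self_eq_zero_iff hT.ne).mpr hT.eta

lemma IsTwo.neg {T : W.Point} (hT : IsTwo T e) : -T = T :=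
  (eq_neg_of_add_eq_zero_left hT.add_self).symm

lemma Split.equation_two (hs : Split W e e' e'') :
    W.Equation e (-(W.a₁ * e + W.a₃) / 2) := by
  have h2 := hs.two
  rw [equation_iff']
  have h3 := hs.b₂
  have h4 := hs.b₄
  have h6 := hs.b₆
  simp only [WeierstrassCurve.b₂, WeierstrassCurve.b₄, WeierstrassCurve.b₆] at h3 h4 h6
  apply mul_left_cancel₀ hs.four
  field_simp
  linear_combination 4 * ((-e ^ 2) * h3 - 2 * e * h4 - h6)

lemma Split.nonsingular_two (hs : Split W e e' e'') :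
    W.Nonsingular e (-(W.a₁ * e + W.a₃) / 2) := by
  have h2 := hs.two
  rw [nonsingular_iff]
  refine ⟨hs.equation_two, Or.inl ?_⟩
  intro h
  have h3 := hs.b₂
  have h4 := hs.b₄
  simp only [WeierstrassCurve.b₂, WeierstrassCurve.b₄] at h3 h4
  have h5 : (e - e') * (e - e'') = 0 := by
    apply mul_left_cancel₀ hs.four
    field_simp at h
    linear_combination (-2) * h + (-2 * e) * h3 - 2 * h4
  rcases mul_eq_zero.mp h5 with h5 | h5
  · exact hs.ne₁ (sub_eq_zero.mp h5)
  · exact hs.ne₂ (sub_eq_zero.mp h5)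

lemma Split.exists_two (hs : Split W e e' e'') : ∃ T : W.Point, IsTwo T e := by
  refine ⟨some _ _ hs.nonsingular_two, some_ne_zero _, rfl, ?_⟩
  have h2 := hs.two
  simp only [eta_some]
  field_simp
  ring

lemma IsTwo.eq {T T' : W.Point} (hT : IsTwo T e) (hT' : IsTwo T' e) : T = T' := by
  rcases eq_or_eq_neg_of_xc_eq hT.ne hT'.ne (hT.x.trans hT'.x.symm) with h | h
  · exact h
  · rw [h, hT'.neg]

/-- the sum of two distinct two-torsion points is the third. -/
lemma IsTwo.add (hs : Split W e e' e'') {T T' : W.Point} (hT : IsTwo T e) (hT' : IsTwo T' e') :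
    IsTwo (T + T') e'' := by
  have h1 := hs.add_two hT'.ne hT.ne hT.x hT.eta (by rw [hT'.x]; exact hs.ne₁.symm)
  rw [add_comm] at h1
  obtain ⟨h1, h2⟩ := h1
  rw [hT'.x] at h2
  refine ⟨h1, ?_, ?_⟩
  · have h3 : e' - e ≠ 0 := sub_ne_zero.mpr hs.ne₁.symm
    apply mul_left_cancel₀ h3
    linear_combination h2
  · rw [← add_self_eq_zero_iff h1, add_add_add_comm, hT.add_self, hT'.add_self, add_zero]

end decEq

end Fermat.Agent.Isog
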