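import Mathlib
import Fermat.Agent.Isog.Basic

/-!
# The quotient of an elliptic curve by a finite subgroup of odd order, via two-torsion
-/

set_option autoImplicit false
set_option linter.unusedSectionVars false

namespace Fermat.Agent.Isog

open WeierstrassCurve WeierstrassCurve.Affine WeierstrassCurve.Affine.Point
open Polynomial

/-- Products of functions whose values agree after pairing by a fixed point free involution. -/
lemma prod_eq_of_pair {ι F : Type*} [Field F] (s : Finset ι) (σ : ι → ι)
    (hσ : ∀ a ∈ s, σ a ∈ s) (hinv : ∀ a ∈ s, σ (σ a) = a) (hfix : ∀ a ∈ s, σ a ≠ a)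
    (g h : ι → F) (hgh : ∀ a ∈ s, g a * g (σ a) = h a * h (σ a)) :
    ∏ a ∈ s, g a = ∏ a ∈ s, h a := by
  by_cases h0 : ∃ a ∈ s, h a = 0
  · obtain ⟨a, ha, ha0⟩ := h0
    rw [Finset.prod_eq_zero ha ha0]
    have h1 := hgh a ha
    rw [ha0, zero_mul, mul_eq_zero] at h1
    rcases h1 with h1 | h1
    · exact Finset.prod_eq_zero ha h1
    · exact Finset.prod_eq_zero (hσ a ha) h1
  · push Not at h0
    have h1 : ∏ a ∈ s, g a / h a = 1 := by
      refine Finset.prod_involution (fun a _ => σ a) ?_ ?_ ?_ ?_
      · intro a ha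
        have h2 := h0 a ha
        have h3 := h0 _ (hσ a ha)
        field_simp
        exact hgh a ha
      · intro a ha _
        exact hfix a ha
      · intro a ha
        exact hσ a ha
      · intro a ha
        exact hinv a ha
    rw [Finset.prod_div_distrib] at h1
    have h2 : ∏ a ∈ s, h a ≠ 0 := Finset.prod_ne_zero_iff.mpr h0
    field_simp at h1
    exact h1

variable {F : Type*} [Field F] [DecidableEq F] {W : Affine F}
variable (N : AddSubgroup W.Point) [Fintype N] [DecidableEq N]

/-- the nonzero elements of `N`. -/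
abbrev nz : Finset N := Finset.univ.erase 0

/-- `∏_{S ∈ N - 0} (x(S) - e)`. -/
def kap (e : F) : F := ∏ S ∈ nz N, (xc (S : W.Point) - e)

/-- The function `X - E`, pulled back from the quotient. -/
def fN (e : F) (P : W.Point) : F := (∏ S : N, (xc (P + (S : W.Point)) - e)) / kap N e

/-- The polynomial `∏_{S ∈ N} (X - x(T + S))`. -/
noncomputable def num (T : W.Point) : F[X] := ∏ S : N, (X - C (xc (T + (S : W.Point))))

/-- The polynomial `∏_{S ∈ N - 0} (X - x(S))`. -/
noncomputable def den : F[X] := ∏ S ∈ nz N, (X - C (xc (S : W.Point)))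

lemma num_monic (T : W.Point) : (num N T).Monic :=
  monic_prod_of_monic _ _ fun _ _ => monic_X_sub_C _

lemma den_monic : (den N).Monic :=
  monic_prod_of_monic _ _ fun _ _ => monic_X_sub_C _

lemma num_natDegree (T : W.Point) : (num N T).natDegree = Fintype.card N := by
  rw [num, natDegree_prod_of_monic _ _ fun _ _ => monic_X_sub_C _]
  simp

lemma den_natDegree : (den N).natDegree = Fintype.card N - 1 := by
  rw [den, natDegree_prod_of_monic _ _ fun _ _ => monic_X_sub_C _]
  simp

lemma eval_num (T : W.Point) (x : F) :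
    (num N T).eval x = ∏ S : N, (x - xc (T + (S : W.Point))) := by
  simp [num, eval_prod]

lemma eval_den (x : F) : (den N).eval x = ∏ S ∈ nz N, (x - xc (S : W.Point)) := by
  simp [den, eval_prod]

lemma fN_add (e : F) (P : W.Point) (S : N) : fN N e (P + S) = fN N e P := by
  unfold fN
  congr 1
  refine Fintype.prod_equiv (Equiv.addLeft S) _ _ fun S' => ?_
  rw [Equiv.coe_addLeft, AddSubgroup.coe_add, add_assoc]

lemma fN_neg (e : F) (P : W.Point) : fN N e (-P) = fN N e P := by
  unfold fN
  congr 1
  refine Fintype.prod_equiv (Equiv.neg N) _ _ fun S' => ?_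
  rw [Equiv.neg_apply, AddSubgroup.coe_neg, ← xc_neg]
  congr 2
  abel

lemma mem_nz {S : N} : S ∈ nz N ↔ S ≠ 0 := by simp

lemma coe_ne_zero_of_mem_nz {S : N} (h : S ∈ nz N) : (S : W.Point) ≠ 0 := by
  rw [mem_nz] at h
  exact fun h' => h (Subtype.ext h')

variable {N} {e e' e'' : F}

/-- elements of odd order subgroups: `S + S = 0` implies `S = 0`. -/
lemma eq_zero_of_add_self (hodd : Odd (Fintype.card N)) {S : W.Point} (hS : S ∈ N)
    (h : S + S = 0) : S = 0 := by
  have h1 : (Fintype.card N) • (⟨S, hS⟩ : N) = 0 := card_nsmul_eq_zero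
  have h2 : (2 : ℕ) • (⟨S, hS⟩ : N) = 0 := by
    rw [two_nsmul]
    exact Subtype.ext h
  obtain ⟨k, hk⟩ := hodd
  rw [hk, add_smul, mul_smul, one_smul, smul_comm, h2, smul_zero, zero_add] at h1
  exact congrArg Subtype.val h1

/-- `T ∉ N` for a two-torsion point. -/
lemma IsTwo.notMem (hodd : Odd (Fintype.card N)) {T : W.Point} (hT : IsTwo T e) : T ∉ N :=
  fun h => hT.ne (eq_zero_of_add_self hodd h hT.add_self)

/-- `x(S) ≠ e` for `S ∈ N`. -/
lemma IsTwo.xc_ne (hodd : Odd (Fintype.card N)) {T : W.Point} (hT : IsTwo T e)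
    {S : W.Point} (hS : S ∈ N) (hS0 : S ≠ 0) : xc S ≠ e := by
  intro h
  rcases eq_or_eq_neg_of_xc_eq hS0 hT.ne (h.trans hT.x.symm) with h | h
  · subst h
    exact hT.notMem hodd hS
  · rw [hT.neg] at h
    subst h
    exact hT.notMem hodd hS

lemma kap_ne_zero (hodd : Odd (Fintype.card N)) {T : W.Point} (hT : IsTwo T e) :
    kap N e ≠ 0 := by
  rw [kap, Finset.prod_ne_zero_iff]
  intro S hS
  rw [sub_ne_zero]
  exact hT.xc_ne hodd S.2 (coe_ne_zero_of_mem_nz N hS)

/-- `T + S ≠ 0`. -/
lemma IsTwo.add_ne (hodd : Odd (Fintype.card N)) {T : W.Point} (hT : IsTwo T e)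
    {S : W.Point} (hS : S ∈ N) : T + S ≠ 0 := by
  intro h
  have h1 : T = -S := eq_neg_of_add_eq_zero_left h
  exact hT.notMem hodd (h1 ▸ N.neg_mem hS)

/-- translation of points of `N` by the two-torsion point. -/
lemma Split.tr (hs : Split W e e' e'') (hodd : Odd (Fintype.card N)) {T : W.Point}
    (hT : IsTwo T e) {S : W.Point} (hS : S ∈ N) (hS0 : S ≠ 0) :
    (xc (T + S) - e) * (xc S - e) = (e - e') * (e - e'') := by
  have h := hs.add_two hS0 hT.ne hT.x hT.eta (hT.xc_ne hodd hS hS0)
  rw [add_comm T S]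
  exact h.2

lemma Split.tr' (hs : Split W e e' e'') (hodd : Odd (Fintype.card N)) {T : W.Point}
    (hT : IsTwo T e) {S : W.Point} (hS : S ∈ N) (hS0 : S ≠ 0) :
    (xc (T + S) - e') * (xc S - e) = (e - e') * (xc S - e'') := by
  have h := hs.tr hodd hT hS hS0
  linear_combination h

/-- The product formula for `P` and `S ∈ N - 0`. -/
lemma Split.keyN (hs : Split W e e' e'') (hodd : Odd (Fintype.card N)) {T : W.Point}
    (hT : IsTwo T e) {S P : W.Point} (hS : S ∈ N) (hS0 : S ≠ 0) (hP : P ∉ N) :
    (xc (P + S) - e) * (xc (P - S) - e) * (xc P - xc S) ^ 2 =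
      (xc S - e) ^ 2 * (xc P - xc (T + S)) ^ 2 := by
  have hP0 : P ≠ 0 := fun h => hP (h ▸ N.zero_mem)
  have hx : xc P ≠ xc S := by
    intro h
    rcases eq_or_eq_neg_of_xc_eq hP0 hS0 h with h | h
    · exact hP (h ▸ hS)
    · exact hP (h ▸ N.neg_mem hS)
  have h1 := (hs.key hP0 hS0 hx).2.2
  have h2 := hs.tr hodd hT hS hS0
  rw [h1, ← h2]
  ring

lemma eval_den_ne_zero {P : W.Point} (hP : P ∉ N) : (den N).eval (xc P) ≠ 0 := by
  rw [eval_den, Finset.prod_ne_zero_iff]
  intro S hS
  rw [sub_ne_zero]
  have hP0 : P ≠ 0 := fun h => hP (h ▸ N.zero_mem)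
  intro h
  rcases eq_or_eq_neg_of_xc_eq hP0 (coe_ne_zero_of_mem_nz N hS) h with h | h
  · exact hP (h ▸ S.2)
  · exact hP (h ▸ N.neg_mem S.2)

lemma neg_ne_self (hodd : Odd (Fintype.card N)) {S : N} (hS : S ≠ 0) : -S ≠ S := by
  intro h
  apply hS
  have h1 : S + S = 0 := by
    nth_rewrite 1 [← h]
    exact neg_add_cancel S
  exact Subtype.ext (eq_zero_of_add_self hodd S.2 (congrArg Subtype.val h1))

/-- `fN` as a rational function of `x(P)`. -/
lemma Split.fN_eq (hs : Split W e e' e'') (hodd : Odd (Fintype.card N)) {T : W.Point}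
    (hT : IsTwo T e) {P : W.Point} (hP : P ∉ N) :
    fN N e P = (num N T).eval (xc P) / (den N).eval (xc P) := by
  have hden := eval_den_ne_zero hP
  have hk := kap_ne_zero hodd hT
  rw [fN, div_eq_div_iff hk hden, eval_num, eval_den, kap,
    ← Finset.mul_prod_erase _ (fun S : N => xc (P + (S : W.Point)) - e) (Finset.mem_univ 0),
    ← Finset.mul_prod_erase _ (fun S : N => xc P - xc (T + (S : W.Point))) (Finset.mem_univ 0)]
  have h1 : ∏ S ∈ nz N, ((xc (P + (S : W.Point)) - e) * (xc P - xc (S : W.Point))) =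
      ∏ S ∈ nz N, ((xc (S : W.Point) - e) * (xc P - xc (T + (S : W.Point)))) := by
    refine prod_eq_of_pair (nz N) (fun S => -S) ?_ ?_ ?_ _ _ ?_
    · intro S hS
      rw [mem_nz] at hS ⊢
      exact neg_ne_zero.mpr hS
    · intro S _
      exact neg_neg S
    · intro S hS
      exact neg_ne_self hodd ((mem_nz N).mp hS)
    · intro S hS
      have h2 := hs.keyN hodd hT S.2 (coe_ne_zero_of_mem_nz N hS) hP
      have h3 : xc (T + ((-S : N) : W.Point)) = xc (T + (S : W.Point)) := by
        rw [← xc_neg, AddSubgroup.coe_neg, neg_add_rev, neg_neg, hT.neg, add_comm]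
      rw [h3]
      simp only [AddSubgroup.coe_neg, xc_neg, ← sub_eq_add_neg]
      linear_combination h2
  rw [Finset.prod_mul_distrib, Finset.prod_mul_distrib] at h1
  simp only [AddSubgroup.coe_zero, add_zero, hT.x]
  linear_combination (xc P - e) * h1

/-- the value of `fN e` at the two-torsion point `T'`. -/
lemma Split.fN_two (hs : Split W e e' e'') (hodd : Odd (Fintype.card N))
    {T T' : W.Point} (hT : IsTwo T e) (hT' : IsTwo T' e') :
    fN N e T' = (e' - e) ^ (Fintype.card N) * kap N e'' / (kap N e' * kap N e) := by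
  have hk := kap_ne_zero hodd hT
  have hk' := kap_ne_zero hodd hT'
  rw [fN, div_eq_div_iff hk (mul_ne_zero hk' hk),
    ← Finset.mul_prod_erase _ (fun S : N => xc (T' + (S : W.Point)) - e) (Finset.mem_univ 0)]
  have h1 : ∏ S ∈ nz N, ((xc (T' + (S : W.Point)) - e) * (xc (S : W.Point) - e')) =
      ∏ S ∈ nz N, ((e' - e) * (xc (S : W.Point) - e'')) := by
    refine Finset.prod_congr rfl fun S hS => ?_
    exact hs.swap.tr' hodd hT' S.2 (coe_ne_zero_of_mem_nz N hS)
  rw [Finset.prod_mul_distrib, Finset.prod_mul_distrib, Finset.prod_const] at h1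
  have h2 : (nz N).card + 1 = Fintype.card N := by
    rw [Finset.card_erase_of_mem (Finset.mem_univ _), Finset.card_univ]
    exact Nat.sub_add_cancel Fintype.card_pos
  rw [← h2, pow_succ]
  simp only [AddSubgroup.coe_zero, add_zero, hT'.x]
  unfold kap at *
  linear_combination (e' - e) * (∏ S ∈ nz N, (xc (S : W.Point) - e)) * h1

/-- the finset of the `x(T + S)`, `S ∈ N`. -/
def xset (N : AddSubgroup W.Point) [Fintype N] (T : W.Point) : Finset F :=
  Finset.univ.image fun S : N => xc (T + (S : W.Point))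

lemma card_xset (hodd : Odd (Fintype.card N)) {T : W.Point} (hT : IsTwo T e) :
    Fintype.card N + 1 ≤ 2 * (xset N T).card := by
  have h1 : (Finset.univ : Finset N).card ≤ 2 * (xset N T).card := by
    refine Finset.card_le_mul_card_image _ 2 fun x hx => ?_
    rw [Finset.mem_image] at hx
    obtain ⟨S, -, rfl⟩ := hx
    have h2 : (Finset.univ.filter fun S' : N => xc (T + (S' : W.Point)) = xc (T + (S : W.Point))) ⊆
        {S, -S} := by
      intro S' hS'
      rw [Finset.mem_filter] at hS'
      have h3 := eq_or_eq_neg_of_xc_eq (hT.add_ne hodd S'.2) (hT.add_ne hodd S.2) hS'.2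
      rw [Finset.mem_insert, Finset.mem_singleton]
      rcases h3 with h3 | h3
      · left
        exact Subtype.ext (add_left_cancel h3)
      · right
        apply Subtype.ext
        rw [neg_add, hT.neg] at h3
        rw [add_left_cancel h3, AddSubgroup.coe_neg]
    exact (Finset.card_le_card h2).trans Finset.card_le_two
  rw [Finset.card_univ] at h1
  obtain ⟨k, hk⟩ := hodd
  omega

lemma disjoint_xset (hs : Split W e e' e'') (hodd : Odd (Fintype.card N)) {T T' : W.Point}
    (hT : IsTwo T e) (hT' : IsTwo T' e') : Disjoint (xset N T) (xset N T') := by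
  rw [Finset.disjoint_left]
  intro x hx hx'
  simp only [xset, Finset.mem_image] at hx hx'
  obtain ⟨S, -, rfl⟩ := hx
  obtain ⟨S', -, h⟩ := hx'
  have hTT : IsTwo (T + T') e'' := hT.add hs hT'
  rcases eq_or_eq_neg_of_xc_eq (hT'.add_ne hodd S'.2) (hT.add_ne hodd S.2) h with h | h
  · apply hTT.notMem hodd
    have h1 : T + T' = (S : W.Point) - S' := by
      have : T' = T + S - S' := by rw [← h]; abel
      have h2 := hT.add_self
      rw [this]
      calc T + (T + S - S') = (T + T) + (S - S') := by abel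
        _ = _ := by rw [h2, zero_add]
    rw [h1]
    exact N.sub_mem S.2 S'.2
  · apply hTT.notMem hodd
    have h1 : T + T' = -(S : W.Point) - S' := by
      have h2 : T' = -(T + S) - S' := by rw [← h]; abel
      rw [h2]
      abel
    rw [h1]
    exact N.sub_mem (N.neg_mem S.2) S'.2

/-- The key identity: `f_e - f_{e'}` is constant. -/
lemma Split.num_sub (hs : Split W e e' e'') (hodd : Odd (Fintype.card N))
    {T T' : W.Point} (hT : IsTwo T e) (hT' : IsTwo T' e') :
    num N T - num N T' = C (fN N e T') * den N := by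
  have hanti : fN N e' T = - fN N e T' := by
    rw [hs.fN_two hodd hT hT', hs.swap.fN_two hodd hT' hT]
    have : (e - e') ^ Fintype.card N = - (e' - e) ^ Fintype.card N := by
      rw [← neg_sub, hodd.neg_pow]
    rw [this, mul_comm (kap N e)]
    ring
  rw [← sub_eq_zero]
  have hdeg : (num N T - num N T' - C (fN N e T') * den N).degree <
      ((xset N T ∪ xset N T').card : WithBot ℕ) := by
    have hn : 0 < Fintype.card N := Fintype.card_pos
    have h1 : (num N T - num N T' - C (fN N e T') * den N).degree <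
        (Fintype.card N : WithBot ℕ) := by
      refine lt_of_le_of_lt (degree_sub_le _ _) (max_lt ?_ ?_)
      · have h2 : (num N T).degree = (num N T').degree := by
          rw [degree_eq_natDegree (num_monic N T).ne_zero,
            degree_eq_natDegree (num_monic N T').ne_zero, num_natDegree, num_natDegree]
        have h3 := degree_sub_lt_left h2 (num_monic N T).ne_zero
          (by rw [(num_monic N T).leadingCoeff, (num_monic N T').leadingCoeff])
        rwa [degree_eq_natDegree (num_monic N T).ne_zero, num_natDegree] at h3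
      · refine lt_of_le_of_lt ((degree_mul_le _ _).trans (add_le_of_nonpos_left degree_C_le)) ?_
        rw [degree_eq_natDegree (den_monic N).ne_zero, den_natDegree]
        exact_mod_cast Nat.sub_lt hn one_pos
    refine lt_of_lt_of_le h1 ?_
    rw [Finset.card_union_of_disjoint (disjoint_xset hs hodd hT hT')]
    have h4 := card_xset hodd hT
    have h5 := card_xset hodd hT'
    exact_mod_cast (by omega : Fintype.card N ≤ _)
  refine eq_zero_of_degree_lt_of_eval_finset_eq_zero _ hdeg ?_
  intro x hx
  rw [eval_sub, eval_sub, eval_mul, eval_C]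
  simp only [Finset.mem_union, xset, Finset.mem_image] at hx
  rcases hx with ⟨S, -, rfl⟩ | ⟨S, -, rfl⟩
  · -- at `T + S`
    have hP : T + (S : W.Point) ∉ N := fun h => hT.notMem hodd (by
      have := N.sub_mem h S.2
      rwa [add_sub_cancel_right] at this)
    have h1 : (num N T).eval (xc (T + (S : W.Point))) = 0 := by
      rw [eval_num]
      exact Finset.prod_eq_zero (Finset.mem_univ S) (sub_self _)
    have h2 := hs.swap.fN_eq hodd hT' hP
    rw [fN_add, hanti, eq_div_iff (eval_den_ne_zero hP)] at h2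
    rw [h1]
    linear_combination h2
  · have hP : T' + (S : W.Point) ∉ N := fun h => hT'.notMem hodd (by
      have := N.sub_mem h S.2
      rwa [add_sub_cancel_right] at this)
    have h1 : (num N T').eval (xc (T' + (S : W.Point))) = 0 := by
      rw [eval_num]
      exact Finset.prod_eq_zero (Finset.mem_univ S) (sub_self _)
    have h2 := hs.fN_eq hodd hT hP
    rw [fN_add, eq_div_iff (eval_den_ne_zero hP)] at h2
    rw [h1]
    linear_combination -h2

lemma Split.fN_sub (hs : Split W e e' e'') (hodd : Odd (Fintype.card N))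
    {T T' : W.Point} (hT : IsTwo T e) (hT' : IsTwo T' e') {P : W.Point} (hP : P ∉ N) :
    fN N e P - fN N e' P = fN N e T' := by
  have h := congrArg (fun f => f.eval (xc P)) (hs.num_sub hodd hT hT')
  simp only [eval_sub, eval_mul, eval_C] at h
  rw [hs.fN_eq hodd hT hP, hs.swap.fN_eq hodd hT' hP, ← sub_div, h,
    mul_div_cancel_right₀ _ (eval_den_ne_zero hP)]

/-- The Diophantine relation between the `kap`'s. -/
lemma Split.relation (hs : Split W e e' e'') (hodd : Odd (Fintype.card N)) :
    (e' - e) ^ (Fintype.card N) * kap N e'' ^ 2 + (e'' - e') ^ (Fintype.card N) * kap N e ^ 2 +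
      (e - e'') ^ (Fintype.card N) * kap N e' ^ 2 = 0 := by
  obtain ⟨T, hT⟩ := hs.exists_two
  obtain ⟨T', hT'⟩ := hs.rot.exists_two
  obtain ⟨T'', hT''⟩ := hs.rot.rot.exists_two
  have hk := kap_ne_zero hodd hT
  have hk' := kap_ne_zero hodd hT'
  have hk'' := kap_ne_zero hodd hT''
  have h1 := (hs.fN_sub hodd hT hT' (hT.notMem hodd)).trans (hs.fN_two hodd hT hT')
  have h2 := (hs.rot.fN_sub hodd hT' hT'' (hT.notMem hodd)).trans (hs.rot.fN_two hodd hT' hT'')
  have h3 := (hs.rot.rot.fN_sub hodd hT'' hT (hT.notMem hodd)).trans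
    (hs.rot.rot.fN_two hodd hT'' hT)
  have h4 : (e' - e) ^ (Fintype.card N) * kap N e'' / (kap N e' * kap N e) +
      (e'' - e') ^ (Fintype.card N) * kap N e / (kap N e'' * kap N e') +
      (e - e'') ^ (Fintype.card N) * kap N e' / (kap N e * kap N e'') = 0 := by
    rw [← h1, ← h2, ← h3]
    ring
  field_simp at h4
  linear_combination h4

end Fermat.Agent.Isog
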