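import Mathlib
import Fermat.Agent.Isog.Quotient

/-!
# The map to the quotient curve on `x`-coordinates
-/

set_option autoImplicit false
set_option linter.unusedSectionVars false

namespace Fermat.Agent.Isog

open WeierstrassCurve WeierstrassCurve.Affine WeierstrassCurve.Affine.Point
open Polynomial

section points

variable {F : Type*} [Field F] {W : Affine F} {e e' e'' : F}

/-- Points of a curve with split two-torsion are given by pairs `(x, η)`. -/
lemma Split.exists_point (hs : Split W e e' e'') {x η : F}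
    (h : η ^ 2 = 4 * ((x - e) * (x - e') * (x - e''))) :
    ∃ P : W.Point, P ≠ 0 ∧ xc P = x ∧ eta P = η := by
  classical
  by_cases hη : η = 0
  · have h0 : (x - e) * (x - e') * (x - e'') = 0 := by
      have h4 := hs.four
      rw [hη] at h
      have h5 : 4 * ((x - e) * (x - e') * (x - e'')) = 0 := by rw [← h]; ring
      exact (mul_eq_zero.mp h5).resolve_left h4
    rcases mul_eq_zero.mp h0 with h1 | h1
    · rcases mul_eq_zero.mp h1 with h1 | h1
      · obtain ⟨T, hT⟩ := hs.exists_two
        exact ⟨T, hT.ne, hT.x.trans (sub_eq_zero.mp h1).symm, hT.eta.trans hη.symm⟩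
      · obtain ⟨T, hT⟩ := hs.rot.exists_two
        exact ⟨T, hT.ne, hT.x.trans (sub_eq_zero.mp h1).symm, hT.eta.trans hη.symm⟩
    · obtain ⟨T, hT⟩ := hs.rot.rot.exists_two
      exact ⟨T, hT.ne, hT.x.trans (sub_eq_zero.mp h1).symm, hT.eta.trans hη.symm⟩
  · have h2 := hs.two
    have h4 := hs.four
    have hy : 2 * ((η - W.a₁ * x - W.a₃) / 2) + W.a₁ * x + W.a₃ = η := by
      field_simp
      ring
    have heq : W.Equation x ((η - W.a₁ * x - W.a₃) / 2) := by
      rw [equation_iff']
      have b2 := hs.b₂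
      have b4 := hs.b₄
      have b6 := hs.b₆
      simp only [WeierstrassCurve.b₂, WeierstrassCurve.b₄, WeierstrassCurve.b₆] at b2 b4 b6
      apply mul_left_cancel₀ h4
      field_simp
      linear_combination h - x ^ 2 * b2 - 2 * x * b4 - b6
    have hns : W.Nonsingular x ((η - W.a₁ * x - W.a₃) / 2) := by
      rw [nonsingular_iff]
      refine ⟨heq, Or.inr ?_⟩
      intro h5
      apply hη
      linear_combination h5 - hy
    exact ⟨some _ _ hns, some_ne_zero _, rfl, by rw [eta_some]; exact hy⟩

/-- A nonzero point is determined by `x` and `η`. -/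
lemma ext_of_xc_eta (h2 : (2 : F) ≠ 0) {P Q : W.Point} (hP : P ≠ 0) (hQ : Q ≠ 0)
    (hx : xc P = xc Q) (hη : eta P = eta Q) : P = Q := by
  obtain ⟨x, y, h, rfl⟩ := exists_some hP
  obtain ⟨x', y', h', rfl⟩ := exists_some hQ
  simp only [xc_some] at hx
  subst hx
  simp only [eta_some] at hη
  have : y = y' := by
    apply mul_left_cancel₀ h2
    linear_combination hη
  subst this
  rfl

end points

variable {F : Type*} [Field F] [DecidableEq F] {W : Affine F}
variable {N : AddSubgroup W.Point} [Fintype N] [DecidableEq N] {e e' e'' : F}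

lemma notMem_add {P S : W.Point} (hP : P ∉ N) (hS : S ∈ N) : P + S ∉ N := fun h => hP (by
  have := N.sub_mem h hS
  rwa [add_sub_cancel_right] at this)

lemma ne_zero_of_notMem {P : W.Point} (hP : P ∉ N) : P ≠ 0 := fun h => hP (h ▸ N.zero_mem)

/-- `num T - num Q` is a multiple of `den`, for all `Q ∉ N`. -/
lemma Split.num_sub' (hs : Split W e e' e'') (hodd : Odd (Fintype.card N))
    {T : W.Point} (hT : IsTwo T e) {Q : W.Point} (hQ : Q ∉ N) :
    num N T - num N Q = C (fN N e Q) * den N := by
  by_cases h2Q : Q + Q ∈ N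
  · -- `Q` is a translate of a two-torsion point
    obtain ⟨k, hk⟩ := hodd
    have hodd : Odd (Fintype.card N) := ⟨k, hk⟩
    set S : W.Point := (k + 1) • (Q + Q) with hSdef
    have hS : S ∈ N := N.nsmul_mem h2Q _
    have hSS : S + S = Q + Q := by
      have h1 : (Fintype.card N) • (⟨Q + Q, h2Q⟩ : N) = 0 := card_nsmul_eq_zero
      have h2 : (2 * k + 1) • (Q + Q) = 0 := by
        rw [hk] at h1
        exact congrArg Subtype.val h1
      rw [hSdef, ← add_smul, show k + 1 + (k + 1) = (2 * k + 1) + 1 by ring, add_smul, h2,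
        zero_add, one_smul]
    have h3 : (Q - S) + (Q - S) = 0 := by
      rw [show (Q - S) + (Q - S) = (Q + Q) - (S + S) by abel, hSS, sub_self]
    have h4 : Q - S ≠ 0 := by
      intro h
      exact hQ (by rw [sub_eq_zero.mp h]; exact hS)
    have h5 : eta (Q - S) = 0 := (add_self_eq_zero_iff h4).mp h3
    have h6 := hs.eta_sq' h4
    rw [h5] at h6
    have h7 : (xc (Q - S) - e) * (xc (Q - S) - e') * (xc (Q - S) - e'') = 0 := by
      have h4 := hs.four
      have h8 : 4 * ((xc (Q - S) - e) * (xc (Q - S) - e') * (xc (Q - S) - e'')) = 0 := by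
        rw [← h6]; ring
      exact (mul_eq_zero.mp h8).resolve_left h4
    have hnum : num N Q = num N (Q - S) := by
      unfold num
      refine Fintype.prod_equiv (Equiv.addLeft ⟨S, hS⟩) _ _ fun S' => ?_
      rw [Equiv.coe_addLeft, AddSubgroup.coe_add]
      congr 3
      change _ = Q - S + (S + _)
      abel
    have hf : fN N e Q = fN N e (Q - S) := by
      have := fN_add N e (Q - S) ⟨S, hS⟩
      rw [← this]
      congr 1
      change _ = Q - S + S
      abel
    rw [hnum, hf]
    rcases mul_eq_zero.mp h7 with h8 | h8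
    · rcases mul_eq_zero.mp h8 with h8 | h8
      · have h9 : IsTwo (Q - S) e := ⟨h4, sub_eq_zero.mp h8, h5⟩
        rw [h9.eq hT, sub_self]
        have : fN N e T = 0 := by
          rw [fN, div_eq_zero_iff]
          left
          refine Finset.prod_eq_zero (Finset.mem_univ 0) ?_
          rw [AddSubgroup.coe_zero, add_zero, hT.x, sub_self]
        rw [this, C_0, zero_mul]
      · have h9 : IsTwo (Q - S) e' := ⟨h4, sub_eq_zero.mp h8, h5⟩
        exact hs.num_sub hodd hT h9
    · have h9 : IsTwo (Q - S) e'' := ⟨h4, sub_eq_zero.mp h8, h5⟩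
      exact hs.swap'.num_sub hodd hT h9
  · rw [← sub_eq_zero]
    have hinj : Set.InjOn (fun S : N => xc (Q + (S : W.Point))) (Finset.univ : Finset N) := by
      intro S _ S' _ h
      have h1 := eq_or_eq_neg_of_xc_eq (ne_zero_of_notMem (notMem_add hQ S.2))
        (ne_zero_of_notMem (notMem_add hQ S'.2)) h
      rcases h1 with h1 | h1
      · exact Subtype.ext (add_left_cancel h1)
      · exfalso
        apply h2Q
        have h2 : Q + Q = -(S : W.Point) - S' := by
          have h3 : Q = -(Q + S') - S := by rw [← h1]; abel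
          calc Q + Q = Q + (-(Q + S') - S) := by rw [← h3]
            _ = _ := by abel
        rw [h2]
        exact N.sub_mem (N.neg_mem S.2) S'.2
    have hcard : (Finset.univ.image fun S : N => xc (Q + (S : W.Point))).card =
        Fintype.card N := by
      rw [Finset.card_image_of_injOn hinj, Finset.card_univ]
    refine eq_zero_of_degree_lt_of_eval_finset_eq_zero
      (Finset.univ.image fun S : N => xc (Q + (S : W.Point))) ?_ ?_
    · rw [hcard]
      have hn : 0 < Fintype.card N := Fintype.card_pos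
      refine lt_of_le_of_lt (degree_sub_le _ _) (max_lt ?_ ?_)
      · have h2 : (num N T).degree = (num N Q).degree := by
          rw [degree_eq_natDegree (num_monic N T).ne_zero,
            degree_eq_natDegree (num_monic N Q).ne_zero, num_natDegree, num_natDegree]
        have h3 := degree_sub_lt_left h2 (num_monic N T).ne_zero
          (by rw [(num_monic N T).leadingCoeff, (num_monic N Q).leadingCoeff])
        rwa [degree_eq_natDegree (num_monic N T).ne_zero, num_natDegree] at h3
      · refine lt_of_le_of_lt ((degree_mul_le _ _).trans (add_le_of_nonpos_left degree_C_le)) ?_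
        rw [degree_eq_natDegree (den_monic N).ne_zero, den_natDegree]
        exact_mod_cast Nat.sub_lt hn one_pos
    · intro x hx
      rw [Finset.mem_image] at hx
      obtain ⟨S, -, rfl⟩ := hx
      have hP := notMem_add hQ S.2
      have h1 : (num N Q).eval (xc (Q + (S : W.Point))) = 0 := by
        rw [eval_num]
        exact Finset.prod_eq_zero (Finset.mem_univ S) (sub_self _)
      have h2 := hs.fN_eq hodd hT hP
      rw [fN_add, eq_div_iff (eval_den_ne_zero hP)] at h2
      rw [eval_sub, eval_sub, eval_mul, eval_C, h1]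
      linear_combination -h2

/-- `∏_{S} (x(P + S) - x(Q)) = den(x(Q)) (f(P) - f(Q))`. -/
lemma Split.prod_sub (hs : Split W e e' e'') (hodd : Odd (Fintype.card N))
    {T : W.Point} (hT : IsTwo T e) {P Q : W.Point} (hP : P ∉ N) (hQ : Q ∉ N) :
    ∏ S : N, (xc (P + (S : W.Point)) - xc Q) = (den N).eval (xc Q) * (fN N e P - fN N e Q) := by
  have h1 := congrArg (fun f => f.eval (xc Q)) (hs.num_sub' hodd hT hP)
  simp only [eval_sub, eval_mul, eval_C] at h1
  have h2 := hs.fN_eq hodd hT hQ
  rw [eq_div_iff (eval_den_ne_zero hQ)] at h2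
  have h3 : ∏ S : N, (xc (P + (S : W.Point)) - xc Q) = - (num N P).eval (xc Q) := by
    rw [eval_num]
    have h4 : ∀ S : N, xc (P + (S : W.Point)) - xc Q = -(xc Q - xc (P + (S : W.Point))) :=
      fun S => by ring
    rw [Finset.prod_congr rfl fun S _ => h4 S, Finset.prod_neg, Finset.card_univ, hodd.neg_one_pow]
    ring
  rw [h3]
  linear_combination h1 + h2

/-- `f(Q + T) f(Q) = c^n / κ²`. -/
lemma Split.fN_add_two (hs : Split W e e' e'') (hodd : Odd (Fintype.card N))
    {T : W.Point} (hT : IsTwo T e) {Q : W.Point} (hQ : Q ∉ N) (hQT : Q + T ∉ N) :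
    fN N e (Q + T) * fN N e Q * kap N e ^ 2 = ((e - e') * (e - e'')) ^ (Fintype.card N) := by
  have hk := kap_ne_zero hodd hT
  have h1 : fN N e (Q + T) * fN N e Q * kap N e ^ 2 =
      (∏ S : N, (xc (Q + T + (S : W.Point)) - e)) * ∏ S : N, (xc (Q + (S : W.Point)) - e) := by
    unfold fN
    field_simp
  rw [h1, ← Finset.prod_mul_distrib, ← Finset.card_univ, ← Finset.prod_const]
  refine Finset.prod_congr rfl fun S _ => ?_
  have h2 : Q + T + (S : W.Point) = Q + S + T := by abel
  have h3 : xc (Q + (S : W.Point)) ≠ e := by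
    intro h
    have h4 := eq_or_eq_neg_of_xc_eq (ne_zero_of_notMem (notMem_add hQ S.2)) hT.ne
      (h.trans hT.x.symm)
    have h5 : Q + (S : W.Point) = T := by
      rcases h4 with h4 | h4
      · exact h4
      · rw [h4, hT.neg]
    apply hQT
    have h6 : Q + T = -(S : W.Point) := by
      have h7 := hT.add_self
      have h8 : Q = T - S := by rw [← h5]; abel
      rw [h8]
      calc T - S + T = (T + T) - S := by abel
        _ = _ := by rw [h7, zero_sub]
    rw [h6]
    exact N.neg_mem S.2
  rw [h2]
  exact (hs.add_two (ne_zero_of_notMem (notMem_add hQ S.2)) hT.ne hT.x hT.eta h3).2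

/-- `(x(Q) - e)^n den(x(Q+T)) = κ den(x(Q)) f(Q)`. -/
lemma Split.den_add_two (hs : Split W e e' e'') (hodd : Odd (Fintype.card N))
    {T : W.Point} (hT : IsTwo T e) {Q : W.Point} (hQ : Q ∉ N) (hQT : Q + T ∉ N) :
    (xc Q - e) ^ (Fintype.card N) * (den N).eval (xc (Q + T)) =
      kap N e * ((den N).eval (xc Q) * fN N e Q) := by
  have h2 := hs.fN_eq hodd hT hQ
  rw [eq_div_iff (eval_den_ne_zero hQ)] at h2
  have hQe : xc Q ≠ e := by
    intro h
    have h4 := eq_or_eq_neg_of_xc_eq (ne_zero_of_notMem hQ) hT.ne (h.trans hT.x.symm)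
    have h5 : Q = T := by
      rcases h4 with h4 | h4
      · exact h4
      · rw [h4, hT.neg]
    rw [h5, hT.add_self] at hQT
    exact hQT N.zero_mem
  rw [mul_comm ((den N).eval (xc Q)), h2, eval_num, eval_den, kap,
    ← Finset.mul_prod_erase _ (fun S : N => xc Q - xc (T + (S : W.Point))) (Finset.mem_univ 0)]
  have h3 : ∏ S ∈ nz N, ((xc Q - e) * (xc (Q + T) - xc (S : W.Point))) =
      ∏ S ∈ nz N, (-1 * ((xc (S : W.Point) - e) * (xc Q - xc (T + (S : W.Point))))) := by
    refine Finset.prod_congr rfl fun S hS => ?_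
    have h4 := (hs.add_two (ne_zero_of_notMem hQ) hT.ne hT.x hT.eta hQe).2
    have h5 := hs.tr hodd hT S.2 (coe_ne_zero_of_mem_nz N hS)
    linear_combination h4 - h5
  have hcard : (nz N).card + 1 = Fintype.card N := by
    rw [Finset.card_erase_of_mem (Finset.mem_univ _), Finset.card_univ]
    exact Nat.sub_add_cancel Fintype.card_pos
  have heven : Even (nz N).card := by
    rw [← hcard] at hodd
    exact Nat.not_odd_iff_even.mp (Nat.odd_add_one.mp hodd)
  rw [Finset.prod_mul_distrib, Finset.prod_mul_distrib, Finset.prod_const, Finset.prod_const,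
    heven.neg_one_pow, one_mul, Finset.prod_mul_distrib] at h3
  rw [← hcard, pow_succ]
  simp only [AddSubgroup.coe_zero, add_zero, hT.x]
  linear_combination (xc Q - e) * h3

/-- The product formula on the quotient. -/
lemma Split.key_quot (hs : Split W e e' e'') (hodd : Odd (Fintype.card N))
    {T : W.Point} (hT : IsTwo T e) {P Q : W.Point} (hP : P ∉ N) (hQ : Q ∉ N)
    (hPQ : P + Q ∉ N) (hPQ' : P - Q ∉ N) :
    fN N e (P + Q) * fN N e (P - Q) * (fN N e P - fN N e Q) ^ 2 =
      (fN N e P * fN N e Q - ((e - e') * (e - e'')) ^ (Fintype.card N) / kap N e ^ 2) ^ 2 := by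
  have hk := kap_ne_zero hodd hT
  by_cases hQT : Q + T ∈ N
  · -- `Q = T + S`
    have h0 : ∀ R : W.Point, fN N e (R + Q) = fN N e (R + T) := by
      intro R
      have h1 := fN_add N e (R + T) ⟨Q + T, hQT⟩
      rw [← h1]
      congr 1
      have h2 := hT.add_self
      change R + Q = R + T + (Q + T)
      calc R + Q = R + Q + (T + T) := by rw [h2, add_zero]
        _ = _ := by abel
    have h0' : ∀ R : W.Point, fN N e (R - Q) = fN N e (R + T) := by
      intro R
      have h1 := fN_add N e (R + T) (-⟨Q + T, hQT⟩)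
      rw [← h1]
      congr 1
      rw [AddSubgroup.coe_neg]
      change _ = R + T + -(Q + T)
      abel
    have hfQ : fN N e Q = 0 := by
      have h1 := h0 0
      rw [zero_add, zero_add] at h1
      rw [h1, fN, div_eq_zero_iff]
      left
      refine Finset.prod_eq_zero (Finset.mem_univ 0) ?_
      rw [AddSubgroup.coe_zero, add_zero, hT.x, sub_self]
    have hPT : P + T ∉ N := by
      intro h
      apply hPQ'
      have h2 := N.sub_mem h hQT
      rwa [add_sub_add_right_eq_sub] at h2
    have h3 := hs.fN_add_two hodd hT hP hPT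
    rw [h0, h0', hfQ, ← h3]
    field_simp
    ring
  · have h1 : fN N e (P + Q) * fN N e (P - Q) * kap N e ^ 2 =
        ∏ S : N, ((xc (P + (S : W.Point) + Q) - e) * (xc (P + (S : W.Point) - Q) - e)) := by
      rw [Finset.prod_mul_distrib]
      unfold fN
      have h2 : ∀ S : N, P + Q + (S : W.Point) = P + (S : W.Point) + Q := fun S => by abel
      have h3 : ∀ S : N, P - Q + (S : W.Point) = P + (S : W.Point) - Q := fun S => by abel
      simp only [h2, h3]
      field_simp
    have hQ0 : Q ≠ 0 := ne_zero_of_notMem hQ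
    have hQe : xc Q ≠ e := by
      intro h
      have h4 := eq_or_eq_neg_of_xc_eq hQ0 hT.ne (h.trans hT.x.symm)
      have h5 : Q = T := by
        rcases h4 with h4 | h4
        · exact h4
        · rw [h4, hT.neg]
      rw [h5, hT.add_self] at hQT
      exact hQT N.zero_mem
    have hQT' := hs.add_two hQ0 hT.ne hT.x hT.eta hQe
    have h4 : ∏ S : N, ((xc (P + (S : W.Point) + Q) - e) * (xc (P + (S : W.Point) - Q) - e) *
          (xc (P + (S : W.Point)) - xc Q) ^ 2) =
        ∏ S : N, ((xc Q - e) * (xc (P + (S : W.Point)) - xc (Q + T))) ^ 2 := by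
      refine Finset.prod_congr rfl fun S _ => ?_
      have h5 : xc (P + (S : W.Point)) ≠ xc Q := by
        intro h
        rcases eq_or_eq_neg_of_xc_eq (ne_zero_of_notMem (notMem_add hP S.2)) hQ0 h with h | h
        · apply hPQ'
          have : P - Q = -(S : W.Point) := by rw [← h]; abel
          rw [this]
          exact N.neg_mem S.2
        · apply hPQ
          have : P + Q = -(S : W.Point) := by
            have h6 : P = -Q - S := by rw [← h]; abel
            rw [h6]; abel
          rw [this]
          exact N.neg_mem S.2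
      rw [(hs.key (ne_zero_of_notMem (notMem_add hP S.2)) hQ0 h5).2.2]
      congr 1
      linear_combination hQT'.2
    rw [Finset.prod_mul_distrib, ← h1, Finset.prod_pow, Finset.prod_pow, Finset.prod_mul_distrib,
      Finset.prod_const, Finset.card_univ, hs.prod_sub hodd hT hP hQ,
      hs.prod_sub hodd hT hP hQT] at h4
    have h5 := hs.den_add_two hodd hT hQ hQT
    have h6 := hs.fN_add_two hodd hT hQ hQT
    have hd := eval_den_ne_zero hQ
    have h7 : (kap N e * (den N).eval (xc Q)) ^ 2 ≠ 0 := pow_ne_zero _ (mul_ne_zero hk hd)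
    apply mul_left_cancel₀ h7
    rw [← h6]
    have h8 : fN N e P * fN N e Q - fN N e (Q + T) * fN N e Q * kap N e ^ 2 / kap N e ^ 2 =
        fN N e Q * (fN N e P - fN N e (Q + T)) := by
      field_simp
    rw [h8]
    have h9 : (kap N e * (den N).eval (xc Q)) ^ 2 *
        (fN N e Q * (fN N e P - fN N e (Q + T))) ^ 2 =
        (kap N e * ((den N).eval (xc Q) * fN N e Q)) ^ 2 *
          (fN N e P - fN N e (Q + T)) ^ 2 := by ring
    rw [h9, ← h5]
    linear_combination h4

/-- `∏_{S ∈ N} η(P + S) / ∏_{S ∈ N - 0} η(S)`. -/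
def etaN (N : AddSubgroup W.Point) [Fintype N] [DecidableEq N] (P : W.Point) : F :=
  (∏ S : N, eta (P + (S : W.Point))) / ∏ S ∈ nz N, eta (S : W.Point)

lemma etaN_add (P : W.Point) (S : N) : etaN N (P + S) = etaN N P := by
  unfold etaN
  congr 1
  refine Fintype.prod_equiv (Equiv.addLeft S) _ _ fun S' => ?_
  rw [Equiv.coe_addLeft, AddSubgroup.coe_add, add_assoc]

lemma etaN_neg (hodd : Odd (Fintype.card N)) (P : W.Point) : etaN N (-P) = - etaN N P := by
  unfold etaN
  rw [← neg_div]
  congr 1
  have h1 : ∏ S : N, eta (-P + (S : W.Point)) = ∏ S : N, (- eta (P + (S : W.Point))) := by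
    refine Fintype.prod_equiv (Equiv.neg N) _ _ fun S' => ?_
    rw [Equiv.neg_apply, AddSubgroup.coe_neg, ← eta_neg]
    congr 1
    abel
  rw [h1, Finset.prod_neg, Finset.card_univ, hodd.neg_one_pow]
  ring

lemma prod_eta_ne_zero (hodd : Odd (Fintype.card N)) : ∏ S ∈ nz N, eta (S : W.Point) ≠ 0 := by
  rw [Finset.prod_ne_zero_iff]
  intro S hS h
  have h0 := coe_ne_zero_of_mem_nz N hS
  exact h0 (eq_zero_of_add_self hodd S.2 ((add_self_eq_zero_iff h0).mpr h))

lemma Split.etaN_sq (hs : Split W e e' e'') (hodd : Odd (Fintype.card N))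
    {P : W.Point} (hP : P ∉ N) :
    etaN N P ^ 2 = 4 * (fN N e P * fN N e' P * fN N e'' P) := by
  obtain ⟨T, hT⟩ := hs.exists_two
  obtain ⟨T', hT'⟩ := hs.rot.exists_two
  obtain ⟨T'', hT''⟩ := hs.rot.rot.exists_two
  have hk := kap_ne_zero hodd hT
  have hk' := kap_ne_zero hodd hT'
  have hk'' := kap_ne_zero hodd hT''
  have h1 : (∏ S ∈ nz N, eta (S : W.Point)) ^ 2 =
      4 ^ (nz N).card * (kap N e * kap N e' * kap N e'') := by
    rw [← Finset.prod_pow, kap, kap, kap, ← Finset.prod_mul_distrib, ← Finset.prod_mul_distrib,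
      ← Finset.prod_const, ← Finset.prod_mul_distrib]
    exact Finset.prod_congr rfl fun S hS => hs.eta_sq' (coe_ne_zero_of_mem_nz N hS)
  have h2 : (∏ S : N, eta (P + (S : W.Point))) ^ 2 =
      4 ^ (Fintype.card N) * ((∏ S : N, (xc (P + (S : W.Point)) - e)) *
        (∏ S : N, (xc (P + (S : W.Point)) - e')) * ∏ S : N, (xc (P + (S : W.Point)) - e'')) := by
    rw [← Finset.prod_pow, ← Finset.prod_mul_distrib, ← Finset.prod_mul_distrib,
      ← Finset.card_univ, ← Finset.prod_const, ← Finset.prod_mul_distrib]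
    exact Finset.prod_congr rfl fun S _ => hs.eta_sq' (ne_zero_of_notMem (notMem_add hP S.2))
  have hcard : (nz N).card + 1 = Fintype.card N := by
    rw [Finset.card_erase_of_mem (Finset.mem_univ _), Finset.card_univ]
    exact Nat.sub_add_cancel Fintype.card_pos
  have h4 : (4 : F) ^ (nz N).card ≠ 0 := pow_ne_zero _ hs.four
  rw [etaN, div_pow, h1, h2, ← hcard, pow_succ]
  unfold fN
  field_simp

end Fermat.Agent.Isog
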