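import Mathlib
import Fermat.Agent.Isog.Map

/-!
# The map to the quotient curve
-/

set_option autoImplicit false
set_option linter.unusedSectionVars false

namespace Fermat.Agent.Isog

open WeierstrassCurve WeierstrassCurve.Affine WeierstrassCurve.Affine.Point

variable {F : Type*} [Field F] [DecidableEq F] {W W' : Affine F}
variable {N : AddSubgroup W.Point} [Fintype N] [DecidableEq N] {e e' e'' E E' E'' u : F}

/-- `W'` is a model of the quotient curve `W / N`. -/
structure Target (N : AddSubgroup W.Point) [Fintype N] [DecidableEq N] (W' : Affine F)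
    (e e' e'' E E' E'' u : F) : Prop where
  src : Split W e e' e''
  odd : Odd (Fintype.card N)
  tgt : Split W' E E' E''
  u_ne : u ≠ 0
  h' : ∀ T : W.Point, IsTwo T e' → E' - E = u ^ 2 * fN N e T
  h'' : ∀ T : W.Point, IsTwo T e'' → E'' - E = u ^ 2 * fN N e T

namespace Target

variable (t : Target N W' e e' e'' E E' E'' u)
include t

lemma rot : Target N W' e' e'' e E' E'' E u where
  src := t.src.rot
  odd := t.odd
  tgt := t.tgt.rot
  u_ne := t.u_ne
  h' := by
    intro T'' hT''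
    obtain ⟨T, hT⟩ := t.src.exists_two
    obtain ⟨T', hT'⟩ := t.src.rot.exists_two
    have h1 := t.src.fN_sub t.odd hT hT' (hT''.notMem t.odd)
    have h2 := t.h' T' hT'
    have h3 := t.h'' T'' hT''
    linear_combination h3 - h2 + u ^ 2 * h1
  h'' := by
    intro T hT
    obtain ⟨T', hT'⟩ := t.src.rot.exists_two
    have h1 := t.src.fN_sub t.odd hT hT' (hT.notMem t.odd)
    have h2 := t.h' T' hT'
    have h3 : fN N e T = 0 := by
      rw [fN, div_eq_zero_iff]
      left
      refine Finset.prod_eq_zero (Finset.mem_univ 0) ?_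
      rw [AddSubgroup.coe_zero, add_zero, hT.x, sub_self]
    rw [h3] at h1
    linear_combination -h2 + u ^ 2 * h1

lemma X_sub {P : W.Point} (hP : P ∉ N) : E + u ^ 2 * fN N e P - E' = u ^ 2 * fN N e' P := by
  obtain ⟨T, hT⟩ := t.src.exists_two
  obtain ⟨T', hT'⟩ := t.src.rot.exists_two
  have h1 := t.src.fN_sub t.odd hT hT' hP
  have h2 := t.h' T' hT'
  linear_combination -h2 + u ^ 2 * h1

lemma X_sub' {P : W.Point} (hP : P ∉ N) : E + u ^ 2 * fN N e P - E'' = u ^ 2 * fN N e'' P := by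
  obtain ⟨T, hT⟩ := t.src.exists_two
  obtain ⟨T'', hT''⟩ := t.src.rot.rot.exists_two
  have h1 := t.src.swap'.fN_sub t.odd hT hT'' hP
  have h2 := t.h'' T'' hT''
  linear_combination -h2 + u ^ 2 * h1

lemma exists_image {P : W.Point} (hP : P ∉ N) :
    ∃ Q : W'.Point, Q ≠ 0 ∧ xc Q = E + u ^ 2 * fN N e P ∧ eta Q = u ^ 3 * etaN N P := by
  refine t.tgt.exists_point ?_
  rw [t.X_sub hP, t.X_sub' hP, mul_pow, t.src.etaN_sq t.odd hP]
  ring

open Classical in
/-- The map to the quotient. -/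
noncomputable def phi (P : W.Point) : W'.Point :=
  if h : P ∈ N then 0 else (t.exists_image h).choose

lemma phi_of_mem {P : W.Point} (hP : P ∈ N) : t.phi P = 0 := by
  rw [phi, dif_pos hP]

lemma phi_ne {P : W.Point} (hP : P ∉ N) : t.phi P ≠ 0 := by
  rw [phi, dif_neg hP]
  exact (t.exists_image hP).choose_spec.1

lemma phi_eq_zero_iff {P : W.Point} : t.phi P = 0 ↔ P ∈ N :=
  ⟨fun h => by_contra fun h' => t.phi_ne h' h, t.phi_of_mem⟩

lemma xc_phi {P : W.Point} (hP : P ∉ N) : xc (t.phi P) = E + u ^ 2 * fN N e P := by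
  rw [phi, dif_neg hP]
  exact (t.exists_image hP).choose_spec.2.1

lemma eta_phi {P : W.Point} (hP : P ∉ N) : eta (t.phi P) = u ^ 3 * etaN N P := by
  rw [phi, dif_neg hP]
  exact (t.exists_image hP).choose_spec.2.2

lemma eq_phi {P : W.Point} (hP : P ∉ N) {Q : W'.Point} (hQ : Q ≠ 0)
    (h1 : xc Q = E + u ^ 2 * fN N e P) (h2 : eta Q = u ^ 3 * etaN N P) : Q = t.phi P :=
  ext_of_xc_eta t.src.two hQ (t.phi_ne hP) (h1.trans (t.xc_phi hP).symm)
    (h2.trans (t.eta_phi hP).symm)

lemma phi_add_mem (P : W.Point) {S : W.Point} (hS : S ∈ N) : t.phi (P + S) = t.phi P := by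
  by_cases hP : P ∈ N
  · rw [t.phi_of_mem hP, t.phi_of_mem (N.add_mem hP hS)]
  · have h1 := notMem_add hP hS
    refine t.eq_phi hP (t.phi_ne h1) ?_ ?_
    · rw [t.xc_phi h1]
      have := fN_add N e P ⟨S, hS⟩
      rw [← this]
    · rw [t.eta_phi h1]
      have := etaN_add P (⟨S, hS⟩ : N)
      rw [← this]

lemma phi_neg (P : W.Point) : t.phi (-P) = - t.phi P := by
  by_cases hP : P ∈ N
  · rw [t.phi_of_mem hP, t.phi_of_mem (N.neg_mem hP), _root_.neg_zero]
  · have h1 : -P ∉ N := fun h => hP (by simpa using N.neg_mem h)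
    symm
    refine t.eq_phi h1 (neg_ne_zero.mpr (t.phi_ne hP)) ?_ ?_
    · rw [xc_neg, t.xc_phi hP, fN_neg]
    · rw [eta_neg, t.eta_phi hP, etaN_neg t.odd]
      ring

lemma E_mul : (E - E') * (E - E'') =
    u ^ 4 * (((e - e') * (e - e'')) ^ (Fintype.card N) / kap N e ^ 2) := by
  obtain ⟨T, hT⟩ := t.src.exists_two
  obtain ⟨T', hT'⟩ := t.src.rot.exists_two
  obtain ⟨T'', hT''⟩ := t.src.rot.rot.exists_two
  have h1 := t.h' T' hT'
  have h2 := t.h'' T'' hT''
  rw [t.src.fN_two t.odd hT hT'] at h1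
  rw [t.src.swap'.fN_two t.odd hT hT''] at h2
  have hk := kap_ne_zero t.odd hT
  have hk' := kap_ne_zero t.odd hT'
  have hk'' := kap_ne_zero t.odd hT''
  have h3 : (E - E') * (E - E'') = (E' - E) * (E'' - E) := by ring
  have h4 : (e - e') * (e - e'') = (e' - e) * (e'' - e) := by ring
  rw [h3, h4, h1, h2, mul_pow]
  field_simp

lemma key_phi {P Q : W.Point} (hP : P ∉ N) (hQ : Q ∉ N) (hPQ : P + Q ∉ N) (hPQ' : P - Q ∉ N) :
    (xc (t.phi (P + Q)) - E) * (xc (t.phi (P - Q)) - E) * (xc (t.phi P) - xc (t.phi Q)) ^ 2 =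
      ((xc (t.phi P) - E) * (xc (t.phi Q) - E) - (E - E') * (E - E'')) ^ 2 := by
  obtain ⟨T, hT⟩ := t.src.exists_two
  have h1 := t.src.key_quot t.odd hT hP hQ hPQ hPQ'
  rw [t.xc_phi hP, t.xc_phi hQ, t.xc_phi hPQ, t.xc_phi hPQ', t.E_mul]
  linear_combination u ^ 8 * h1

lemma xc_phi_ne {P Q : W.Point} (hP : P ∉ N) (hQ : Q ∉ N) (hPQ : P + Q ∉ N) (hPQ' : P - Q ∉ N) :
    xc (t.phi P) ≠ xc (t.phi Q) := by
  obtain ⟨T, hT⟩ := t.src.exists_two
  have h1 := t.src.prod_sub t.odd hT hP hQ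
  have h2 : ∏ S : N, (xc (P + (S : W.Point)) - xc Q) ≠ 0 := by
    rw [Finset.prod_ne_zero_iff]
    intro S _ h
    rcases eq_or_eq_neg_of_xc_eq (ne_zero_of_notMem (notMem_add hP S.2)) (ne_zero_of_notMem hQ)
      (sub_eq_zero.mp h) with h | h
    · apply hPQ'
      have : P - Q = -(S : W.Point) := by rw [← h]; abel
      rw [this]
      exact N.neg_mem S.2
    · apply hPQ
      have : P + Q = -(S : W.Point) := by
        have h6 : P = -Q - S := by rw [← h]; abel
        rw [h6]; abel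
      rw [this]
      exact N.neg_mem S.2
  rw [t.xc_phi hP, t.xc_phi hQ]
  intro h
  apply h2
  rw [h1]
  have h3 : u ^ 2 * (fN N e P - fN N e Q) = 0 := by linear_combination h
  rw [(mul_eq_zero.mp h3).resolve_left (pow_ne_zero _ t.u_ne), mul_zero]

/-- `phi` is a homomorphism on the level of the `x`-line. -/
lemma phi_add_sub {P Q : W.Point} (hP : P ∉ N) (hQ : Q ∉ N) (hPQ : P + Q ∉ N)
    (hPQ' : P - Q ∉ N) :
    t.phi P + t.phi Q ≠ 0 ∧ t.phi P - t.phi Q ≠ 0 ∧
    ((xc (t.phi (P + Q)) = xc (t.phi P + t.phi Q) ∧ xc (t.phi (P - Q)) = xc (t.phi P - t.phi Q)) ∨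
     (xc (t.phi (P + Q)) = xc (t.phi P - t.phi Q) ∧
        xc (t.phi (P - Q)) = xc (t.phi P + t.phi Q))) := by
  have hne := t.xc_phi_ne hP hQ hPQ hPQ'
  obtain ⟨h1, h2, h3⟩ := t.tgt.key (t.phi_ne hP) (t.phi_ne hQ) hne
  obtain ⟨-, -, h3'⟩ := t.tgt.rot.key (t.phi_ne hP) (t.phi_ne hQ) hne
  have h4 := t.key_phi hP hQ hPQ hPQ'
  have h4' : (xc (t.phi (P + Q)) - E') * (xc (t.phi (P - Q)) - E') *
      (xc (t.phi P) - xc (t.phi Q)) ^ 2 =
      ((xc (t.phi P) - E') * (xc (t.phi Q) - E') - (E' - E'') * (E' - E)) ^ 2 := by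
    have h5 := t.rot.key_phi hP hQ hPQ hPQ'
    have h6 : ∀ {R : W.Point}, R ∉ N → xc (t.rot.phi R) = xc (t.phi R) := by
      intro R hR
      rw [t.xc_phi hR, t.rot.xc_phi hR]
      linear_combination -(t.X_sub hR)
    rwa [h6 hP, h6 hQ, h6 hPQ, h6 hPQ'] at h5
  refine ⟨h1, h2, ?_⟩
  have hsq : (xc (t.phi P) - xc (t.phi Q)) ^ 2 ≠ 0 := pow_ne_zero _ (sub_ne_zero.mpr hne)
  set α := xc (t.phi P + t.phi Q)
  set β := xc (t.phi P - t.phi Q)
  set α2 := xc (t.phi (P + Q))
  set β2 := xc (t.phi (P - Q))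
  have h5 : (α2 - E) * (β2 - E) = (α - E) * (β - E) := by
    apply mul_right_cancel₀ hsq
    rw [h4, h3]
  have h5' : (α2 - E') * (β2 - E') = (α - E') * (β - E') := by
    apply mul_right_cancel₀ hsq
    rw [h4', h3']
  have hEE : E' - E ≠ 0 := sub_ne_zero.mpr t.tgt.ne₁.symm
  have hsum : α2 + β2 = α + β := by
    apply mul_left_cancel₀ hEE
    linear_combination h5 - h5'
  have hprod : (α2 - α) * (α2 - β) = 0 := by
    linear_combination α2 * hsum - h5 - E * hsum
  rcases mul_eq_zero.mp hprod with h | h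
  · left
    rw [sub_eq_zero] at h
    refine ⟨h, ?_⟩
    rw [h] at hsum
    exact add_left_cancel hsum
  · right
    rw [sub_eq_zero] at h
    refine ⟨h, ?_⟩
    rw [h, add_comm α] at hsum
    exact add_left_cancel hsum

/-- multiples of `phi R`. -/
lemma phi_nsmul {p : ℕ} (hp5 : 5 ≤ p) {R : W.Point}
    (hR : ∀ i : ℕ, 0 < i → i < p → i • R ∉ N) :
    ∀ i : ℕ, 0 < i → i < p → t.phi (i • R) = i • t.phi R ∨ t.phi (i • R) = -(i • t.phi R) := by
  have hR1 : R ∉ N := by simpa using hR 1 one_pos (by omega)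
  have hR2 : (2 : ℕ) • R ∉ N := hR 2 (by norm_num) (by omega)
  have hR3 : (3 : ℕ) • R ∉ N := hR 3 (by norm_num) (by omega)
  have h2 : t.phi ((2 : ℕ) • R) = (2 : ℕ) • t.phi R ∨
      t.phi ((2 : ℕ) • R) = -((2 : ℕ) • t.phi R) := by
    have h21 : (2 : ℕ) • R + R = (3 : ℕ) • R := by rw [← succ_nsmul]
    have h22 : (2 : ℕ) • R - R = R := by rw [two_nsmul, add_sub_cancel_right]
    obtain ⟨h3, h4, h5⟩ := t.phi_add_sub hR2 hR1 (by rw [h21]; exact hR3) (by rw [h22]; exact hR1)
    rw [h22] at h5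
    have hφ1 := t.phi_ne hR1
    have hφ2 := t.phi_ne hR2
    rcases h5 with ⟨-, h5⟩ | ⟨-, h5⟩
    · rcases eq_or_eq_neg_of_xc_eq hφ1 h4 h5 with h6 | h6
      · left
        rw [two_nsmul (t.phi R)]
        rw [eq_comm, sub_eq_iff_eq_add] at h6
        exact h6
      · exfalso
        apply hφ2
        rw [neg_sub, eq_comm, sub_eq_self] at h6
        exact h6
    · rcases eq_or_eq_neg_of_xc_eq hφ1 h3 h5 with h6 | h6
      · exfalso
        apply hφ2
        exact (add_eq_right.mp h6.symm)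
      · right
        rw [neg_add] at h6
        rw [two_nsmul (t.phi R)]
        have h7 : t.phi ((2 : ℕ) • R) = -(t.phi R) - t.phi R := by
          nth_rewrite 2 [h6]
          abel
        rw [h7]
        abel
  intro i
  induction i using Nat.strong_induction_on with
  | _ i ih =>
    intro hi0 hip
    rcases Nat.lt_or_ge i 3 with hi | hi
    · interval_cases i
      · left; simp
      · exact h2
    · obtain ⟨k, rfl⟩ : ∃ k, i = k + 2 := ⟨i - 2, by omega⟩
      have hk := ih k (by omega) (by omega) (by omega)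
      have hk1 := ih (k + 1) (by omega) (by omega) (by omega)
      have e1 : (k + 1) • R + R = (k + 2) • R := by rw [← succ_nsmul]
      have e2 : (k + 1) • R - R = k • R := by rw [succ_nsmul, add_sub_cancel_right]
      have hRk := hR k (by omega) (by omega)
      have hRk1 := hR (k + 1) (by omega) (by omega)
      have hRk2 := hR (k + 2) (by omega) (by omega)
      obtain ⟨h3, h4, h5⟩ := t.phi_add_sub hRk1 hR1 (by rw [e1]; exact hRk2)
        (by rw [e2]; exact hRk)
      rw [e1, e2] at h5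
      have e3 : (k + 1) • t.phi R + t.phi R = (k + 2) • t.phi R := by rw [← succ_nsmul]
      have e4 : (k + 1) • t.phi R - t.phi R = k • t.phi R := by
        rw [succ_nsmul, add_sub_cancel_right]
      have hxk : xc (t.phi (k • R)) = xc (k • t.phi R) := by
        rcases hk with h | h <;> rw [h]
        rw [xc_neg]
      have hφk2 := t.phi_ne hRk2
      rcases hk1 with hk1 | hk1
      · rw [hk1, e3] at h3
        rw [hk1, e3, e4] at h5
        have h6 : xc (t.phi ((k + 2) • R)) = xc ((k + 2) • t.phi R) := by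
          rcases h5 with ⟨h5, -⟩ | ⟨h5, h5'⟩
          · exact h5
          · rw [h5, ← hxk, h5']
        exact eq_or_eq_neg_of_xc_eq hφk2 h3 h6
      · have e5 : -((k + 1) • t.phi R) - t.phi R = -((k + 2) • t.phi R) := by
          rw [← e3]; abel
        have e6 : -((k + 1) • t.phi R) + t.phi R = -(k • t.phi R) := by
          rw [← e4]; abel
        rw [hk1, e5] at h4
        rw [hk1, e5, e6, xc_neg, xc_neg] at h5
        have h6 : xc (t.phi ((k + 2) • R)) = xc ((k + 2) • t.phi R) := by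
          rcases h5 with ⟨h5, h5'⟩ | ⟨h5, -⟩
          · rw [h5, ← hxk, h5']
          · exact h5
        exact eq_or_eq_neg_of_xc_eq hφk2 (neg_ne_zero.mp h4) h6

/-- The image of a point of prime order `p ≥ 5` not in `N` has order `p`. -/
theorem addOrderOf_phi {p : ℕ} (hp : p.Prime) (hp5 : 5 ≤ p) {R : W.Point} (hpR : p • R ∈ N)
    (hR : ∀ i : ℕ, 0 < i → i < p → i • R ∉ N) : addOrderOf (t.phi R) = p := by
  have hR1 : R ∉ N := by simpa using hR 1 one_pos (by omega)
  have hφ1 := t.phi_ne hR1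
  obtain ⟨k, hk⟩ := hp.odd_of_ne_two (by omega)
  have h1 := t.phi_nsmul hp5 hR k (by omega) (by omega)
  have h2 := t.phi_nsmul hp5 hR (k + 1) (by omega) (by omega)
  have h3 : t.phi ((k + 1) • R) = - t.phi (k • R) := by
    rw [← t.phi_neg]
    have h4 : (k + 1) • R = -(k • R) + p • R := by
      rw [hk, two_mul, add_assoc, add_smul k (k + 1)]
      abel
    rw [h4, t.phi_add_mem _ hpR]
  have h5 : p • t.phi R = 0 := by
    rw [h3] at h2
    have e1 : p • t.phi R = (k + 1) • t.phi R + k • t.phi R := by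
      rw [← add_smul, hk]
      congr 1
      ring
    have e2 : (k + 1) • t.phi R = k • t.phi R + t.phi R := succ_nsmul _ _
    rcases h1 with h1 | h1 <;> rcases h2 with h2 | h2 <;> rw [h1] at h2
    · rw [e1, ← h2, neg_add_cancel]
    · exfalso
      apply hφ1
      rw [e2] at h2
      have h6 := neg_injective h2
      exact (left_eq_add.mp h6)
    · exfalso
      apply hφ1
      rw [e2, neg_neg] at h2
      exact (left_eq_add.mp h2)
    · rw [e1, ← neg_injective h2, neg_add_cancel]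
  have : Fact p.Prime := ⟨hp⟩
  exact addOrderOf_eq_prime h5 hφ1

end Target

end Fermat.Agent.Isog
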