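import Mathlib
import Fermat.Prelude.Def_FLTPrelim_GaloisRep
import Fermat.Agent.Isog.Phi

/-!
# Galois equivariance of the quotient map
-/

set_option autoImplicit false
set_option linter.unusedSectionVars false

namespace Fermat.Agent.Isog

open WeierstrassCurve WeierstrassCurve.Affine WeierstrassCurve.Affine.Point

section kap

variable {F : Type*} [Field F] [DecidableEq F] {W : Affine F}

/-- `∏ (x - e)` over the distinct `x`-coordinates `x` of nonzero points of `N`. -/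
def Pi (N : AddSubgroup W.Point) [Fintype N] [DecidableEq N] (e : F) : F :=
  ∏ x ∈ (nz N).image (fun S : N => xc (S : W.Point)), (x - e)

lemma kap_eq_sq {N : AddSubgroup W.Point} [Fintype N] [DecidableEq N]
    (hodd : Odd (Fintype.card N)) (e : F) : kap N e = Pi N e ^ 2 := by
  rw [kap, Pi, ← Finset.prod_pow,
    Finset.prod_comp (s := nz N) (fun x : F => x - e) (fun S : N => xc (S : W.Point))]
  refine Finset.prod_congr rfl fun x hx => ?_
  congr 1
  rw [Finset.mem_image] at hx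
  obtain ⟨S, hS, rfl⟩ := hx
  have h0 := coe_ne_zero_of_mem_nz N hS
  have h1 : (nz N).filter (fun S' : N => xc (S' : W.Point) = xc (S : W.Point)) = {S, -S} := by
    ext S'
    rw [Finset.mem_filter, Finset.mem_insert, Finset.mem_singleton]
    constructor
    · rintro ⟨h2, h3⟩
      rcases eq_or_eq_neg_of_xc_eq (coe_ne_zero_of_mem_nz N h2) h0 h3 with h4 | h4
      · left; exact Subtype.ext h4
      · right; exact Subtype.ext (by rw [h4, AddSubgroup.coe_neg])
    · rintro (rfl | rfl)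
      · exact ⟨hS, rfl⟩
      · refine ⟨?_, by rw [AddSubgroup.coe_neg, xc_neg]⟩
        rw [mem_nz] at hS ⊢
        exact neg_ne_zero.mpr hS
  rw [h1, Finset.card_pair]
  exact (neg_ne_self hodd ((mem_nz N).mp hS)).symm

lemma Pi_ne_zero {N : AddSubgroup W.Point} [Fintype N] [DecidableEq N] {e : F} {T : W.Point}
    (hodd : Odd (Fintype.card N)) (hT : IsTwo T e) : Pi N e ≠ 0 := by
  have h := kap_ne_zero hodd hT
  rw [kap_eq_sq hodd] at h
  exact fun h' => h (by rw [h']; ring)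

end kap

section galois

variable {R : Type*} {S : Type*} {K : Type*} [CommRing R] [CommRing S] [Field K]
  [DecidableEq K] {W : Affine R} [Algebra R S] [Algebra R K] [Algebra S K]
  [IsScalarTower R S K]

lemma xc_smul (σ : K ≃ₐ[S] K) (P : (W⁄K).Point) : xc (σ • P) = σ (xc P) := by
  rcases P with _ | ⟨x, y, h⟩
  · exact (map_zero' σ).symm
  · rfl
where map_zero' (σ : K ≃ₐ[S] K) : σ 0 = 0 := _root_.map_zero σ

lemma eta_smul (σ : K ≃ₐ[S] K) (P : (W⁄K).Point) : eta (σ • P) = σ (eta P) := by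
  rcases P with _ | ⟨x, y, h⟩
  · exact (_root_.map_zero σ).symm
  · change 2 * σ y + (W⁄K).a₁ * σ x + (W⁄K).a₃ = σ (2 * y + (W⁄K).a₁ * x + (W⁄K).a₃)
    have h1 : ∀ r : R, σ (algebraMap R K r) = algebraMap R K r := by
      intro r
      rw [IsScalarTower.algebraMap_apply R S K, σ.commutes]
    have h2 : (W⁄K).a₁ = algebraMap R K W.a₁ := rfl
    have h3 : (W⁄K).a₃ = algebraMap R K W.a₃ := rfl
    rw [h2, h3]
    simp only [map_add, map_mul, map_ofNat, h1]

variable {N : AddSubgroup (W⁄K).Point} [Fintype N] [DecidableEq N]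

/-- The permutation of a stable subgroup induced by a Galois element. -/
noncomputable def permN (hN : ∀ σ : K ≃ₐ[S] K, ∀ P ∈ N, σ • P ∈ N) (σ : K ≃ₐ[S] K) : N ≃ N where
  toFun P := ⟨σ • (P : (W⁄K).Point), hN σ _ P.2⟩
  invFun P := ⟨σ⁻¹ • (P : (W⁄K).Point), hN σ⁻¹ _ P.2⟩
  left_inv P := Subtype.ext (by simp)
  right_inv P := Subtype.ext (by simp)

@[simp] lemma coe_permN (hN : ∀ σ : K ≃ₐ[S] K, ∀ P ∈ N, σ • P ∈ N) (σ : K ≃ₐ[S] K) (P : N) :
    ((permN hN σ P : N) : (W⁄K).Point) = σ • (P : (W⁄K).Point) := rfl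

lemma permN_mem_nz (hN : ∀ σ : K ≃ₐ[S] K, ∀ P ∈ N, σ • P ∈ N) (σ : K ≃ₐ[S] K) (P : N) :
    permN hN σ P ∈ nz N ↔ P ∈ nz N := by
  rw [mem_nz, mem_nz, not_iff_not]
  constructor
  · intro h
    apply (permN hN σ).injective
    rw [h]
    exact (Subtype.ext (by simp)).symm
  · rintro rfl
    exact Subtype.ext (by simp)

lemma Pi_galois (hN : ∀ σ : K ≃ₐ[S] K, ∀ P ∈ N, σ • P ∈ N) (σ : K ≃ₐ[S] K) {e : K}
    (he : σ e = e) : σ (Pi N e) = Pi N e := by
  rw [Pi, map_prod]
  refine Finset.prod_bij (fun x _ => σ x) ?_ ?_ ?_ ?_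
  · intro x hx
    rw [Finset.mem_image] at hx ⊢
    obtain ⟨P, hP, rfl⟩ := hx
    exact ⟨permN hN σ P, (permN_mem_nz hN σ P).mpr hP, by rw [coe_permN, xc_smul]⟩
  · intro x _ y _ h
    exact σ.injective h
  · intro x hx
    rw [Finset.mem_image] at hx
    obtain ⟨P, hP, rfl⟩ := hx
    refine ⟨xc (σ⁻¹ • (P : (W⁄K).Point)), ?_, ?_⟩
    · rw [Finset.mem_image]
      exact ⟨permN hN σ⁻¹ P, (permN_mem_nz hN σ⁻¹ P).mpr hP, by rw [coe_permN]⟩
    · rw [← xc_smul, smul_inv_smul]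
  · intro x _
    rw [map_sub, he]

lemma kap_galois (hN : ∀ σ : K ≃ₐ[S] K, ∀ P ∈ N, σ • P ∈ N) (σ : K ≃ₐ[S] K) {e : K}
    (he : σ e = e) : σ (kap N e) = kap N e := by
  rw [kap, map_prod]
  refine Finset.prod_bij (fun P _ => permN hN σ P) ?_ ?_ ?_ ?_
  · intro P hP
    exact (permN_mem_nz hN σ P).mpr hP
  · intro x _ y _ h
    exact (permN hN σ).injective h
  · intro P hP
    exact ⟨(permN hN σ).symm P, by rw [← permN_mem_nz hN σ]; simpa using hP, by simp⟩
  · intro P _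
    rw [coe_permN, xc_smul, map_sub, he]

lemma fN_galois (hN : ∀ σ : K ≃ₐ[S] K, ∀ P ∈ N, σ • P ∈ N) (σ : K ≃ₐ[S] K) {e : K}
    (he : σ e = e) (P : (W⁄K).Point) : fN N e (σ • P) = σ (fN N e P) := by
  rw [fN, fN, map_div₀, kap_galois hN σ he, map_prod]
  congr 1
  symm
  refine Fintype.prod_equiv (permN hN σ) _ _ fun P' => ?_
  rw [coe_permN, ← smul_add, xc_smul, map_sub, he]

lemma etaN_galois (hN : ∀ σ : K ≃ₐ[S] K, ∀ P ∈ N, σ • P ∈ N) (σ : K ≃ₐ[S] K)
    (P : (W⁄K).Point) : etaN N (σ • P) = σ (etaN N P) := by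
  rw [etaN, etaN, map_div₀, map_prod, map_prod]
  congr 1
  · symm
    refine Fintype.prod_equiv (permN hN σ) _ _ fun P' => ?_
    rw [coe_permN, ← smul_add, eta_smul]
  · symm
    refine Finset.prod_bij (fun P _ => permN hN σ P) ?_ ?_ ?_ ?_
    · intro P hP
      exact (permN_mem_nz hN σ P).mpr hP
    · intro x _ y _ h
      exact (permN hN σ).injective h
    · intro P hP
      exact ⟨(permN hN σ).symm P, by rw [← permN_mem_nz hN σ]; simpa using hP, by simp⟩
    · intro P _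
      rw [coe_permN, eta_smul]

variable {R' : Type*} [CommRing R'] [Algebra R' S] [Algebra R' K] [IsScalarTower R' S K]
  {W' : Affine R'} {e e' e'' E E' E'' u : K}

lemma Target.phi_galois (t : Target N (W'⁄K) e e' e'' E E' E'' u)
    (hN : ∀ σ : K ≃ₐ[S] K, ∀ P ∈ N, σ • P ∈ N) (σ : K ≃ₐ[S] K)
    (he : σ e = e) (hE : σ E = E) (hu : σ u = u) (P : (W⁄K).Point) :
    t.phi (σ • P) = σ • t.phi P := by
  by_cases hP : P ∈ N
  · rw [t.phi_of_mem hP, t.phi_of_mem (hN σ P hP), smul_zero]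
  · have hP' : σ • P ∉ N := fun h => hP (by
      have := hN σ⁻¹ _ h
      rwa [inv_smul_smul] at this)
    symm
    refine t.eq_phi hP' ?_ ?_ ?_
    · intro h
      apply t.phi_ne hP
      rw [← smul_zero σ] at h
      exact smul_left_cancel σ h
    · rw [xc_smul, t.xc_phi hP, fN_galois hN σ he, map_add, map_mul, map_pow, hE, hu]
    · rw [eta_smul, t.eta_phi hP, etaN_galois hN σ, map_mul, map_pow, hu]

end galois

end Fermat.Agent.Isog
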