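import Mathlib
import Fermat.Agent.Isog.Galois
import Fermat.Agent.Torsion.FiniteLevel
import Fermat.Agent.Frey.CurveInt
import Fermat.Prelude.Def_FLTPrelim_CofixedLine

/-!
# The data attached to a cofixed line of a Frey curve
-/

set_option autoImplicit false
set_option linter.unusedSectionVars false

namespace Fermat.Agent.Isog

open WeierstrassCurve WeierstrassCurve.Affine WeierstrassCurve.Affine.Point

/-- the algebraic closure of `ℚ` -/
abbrev Qb := AlgebraicClosure ℚ

/-- The `ℚ̄`-points of the Frey curve. -/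
abbrev FreyPt (P : FreyPackage) := (P.freyCurve⁄Qb).Point

lemma exists_rat_of_fixed {x : Qb} (hx : ∀ σ : Qb ≃ₐ[ℚ] Qb, σ x = x) :
    ∃ q : ℚ, algebraMap ℚ Qb q = x := by
  have : Algebra.IsAlgebraic ℚ (AlgebraicClosure ℚ) := AlgebraicClosure.isAlgebraic ℚ
  have : IsAlgClosure ℚ (AlgebraicClosure ℚ) := ⟨AlgebraicClosure.isAlgClosed ℚ, this⟩
  have : IsGalois ℚ (AlgebraicClosure ℚ) := IsAlgClosure.isGalois ℚ _
  have h := (InfiniteGalois.mem_bot_iff_fixed (k := ℚ) (K := Qb) x).mpr hx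
  rw [IntermediateField.mem_bot] at h
  exact h

/-- The two-torsion of the Frey curve. -/
theorem freySplit (P : FreyPackage) :
    Split (P.freyCurve⁄Qb) (0 : Qb) ((P.a : Qb) ^ P.p / 4) (-(P.b : Qb) ^ P.p / 4) where
  b₂ := by
    change (P.freyCurve.map (algebraMap ℚ Qb)).b₂ = _
    rw [WeierstrassCurve.map_b₂, WeierstrassCurve.b₂]
    simp only [FreyPackage.freyCurve]
    simp only [map_add, map_sub, map_mul, map_pow, map_div₀, map_one, map_ofNat, map_intCast]
    ring
  b₄ := by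
    change (P.freyCurve.map (algebraMap ℚ Qb)).b₄ = _
    rw [WeierstrassCurve.map_b₄, WeierstrassCurve.b₄]
    simp only [FreyPackage.freyCurve]
    simp only [map_add, map_mul, map_pow, map_div₀, map_one, map_ofNat, map_intCast,
      _root_.map_neg, _root_.map_zero]
    ring
  b₆ := by
    change (P.freyCurve.map (algebraMap ℚ Qb)).b₆ = _
    rw [WeierstrassCurve.map_b₆, WeierstrassCurve.b₆]
    simp only [FreyPackage.freyCurve]
    simp
  ne₁ := by
    have h : (P.a : Qb) ≠ 0 := by exact_mod_cast P.ha0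
    have h2 : (P.a : Qb) ^ P.p / 4 ≠ 0 := div_ne_zero (pow_ne_zero _ h) (by norm_num)
    exact h2.symm
  ne₂ := by
    have h : (P.b : Qb) ≠ 0 := by exact_mod_cast P.hb0
    have h2 : -(P.b : Qb) ^ P.p / 4 ≠ 0 :=
      div_ne_zero (neg_ne_zero.mpr (pow_ne_zero _ h)) (by norm_num)
    exact h2.symm
  ne₃ := by
    have h : (P.c : Qb) ≠ 0 := by exact_mod_cast P.hc0
    have h2 : (P.c : Qb) ^ P.p ≠ 0 := pow_ne_zero _ h
    have h3 : (P.a : Qb) ^ P.p + (P.b : Qb) ^ P.p = (P.c : Qb) ^ P.p := by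
      exact_mod_cast P.hFLT
    intro h4
    apply h2
    rw [← h3]
    linear_combination 4 * h4
  two := by norm_num

lemma freyCurve_Δ_ne_zero (P : FreyPackage) : P.freyCurve.Δ ≠ 0 := by
  rw [← Frey.freyCurveInt_map, WeierstrassCurve.map_Δ]
  simpa using Frey.freyCurveInt_Δ_ne_zero P

/-- The data attached to a cofixed line. -/
structure CofixedData (P : FreyPackage) where
  N : AddSubgroup (FreyPt P)
  fin : Fintype N
  dec : DecidableEq N
  card : Fintype.card N = P.p
  stable : ∀ σ : Qb ≃ₐ[ℚ] Qb, ∀ S ∈ N, σ • S ∈ N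
  tors : ∀ S ∈ N, P.p • S = 0
  R : FreyPt P
  torsR : P.p • R = 0
  notMem : ∀ i : ℕ, 0 < i → i < P.p → i • R ∉ N
  cofixed : ∀ σ : Qb ≃ₐ[ℚ] Qb, σ • R - R ∈ N
  span : ∀ x : FreyPt P, P.p • x = 0 → ∃ i : ℕ, i < P.p ∧ x - i • R ∈ N

attribute [instance] CofixedData.fin CofixedData.dec

theorem exists_cofixedData (P : FreyPackage)
    (h : HasGaloisStableCofixedLine (K := AlgebraicClosure ℚ) ℚ P.freyCurve P.p) :
    Nonempty (CofixedData P) := by
  classical
  have hpF : Fact P.p.Prime := ⟨P.pp⟩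
  have hΔ := freyCurve_Δ_ne_zero P
  obtain ⟨N, hN, hN0, hN1, hco⟩ := h
  have hcard : Nat.card (Submodule.torsionBy ℤ (P.freyCurve⁄(AlgebraicClosure ℚ)).Point P.p) =
      P.p ^ 2 := Torsion.card_torsionBy_rat hΔ P.hp0
  have hfin : Finite (Submodule.torsionBy ℤ (P.freyCurve⁄(AlgebraicClosure ℚ)).Point P.p) :=
    Torsion.finite_torsionBy_rat hΔ P.hp0
  have hrank : Module.finrank (ZMod P.p)
      (Submodule.torsionBy ℤ (P.freyCurve⁄(AlgebraicClosure ℚ)).Point P.p) = 2 := by
    have h1 := Module.natCard_eq_pow_finrank (K := ZMod P.p)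
      (V := Submodule.torsionBy ℤ (P.freyCurve⁄(AlgebraicClosure ℚ)).Point P.p)
    rw [hcard, Nat.card_eq_fintype_card (α := ZMod P.p), ZMod.card] at h1
    exact (Nat.pow_right_injective P.pp.two_le h1).symm
  have hNrank : Module.finrank (ZMod P.p) N = 1 := by
    have h1 := Submodule.finrank_lt hN1
    rw [hrank] at h1
    have h2 : 0 < Module.finrank (ZMod P.p) N := by
      rw [Nat.pos_iff_ne_zero]
      intro h3
      exact hN0 (Submodule.finrank_eq_zero.mp h3)
    omega
  have hNcard : Nat.card N = P.p := by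
    have h1 := Module.natCard_eq_pow_finrank (K := ZMod P.p) (V := N)
    rw [hNrank, pow_one, Nat.card_eq_fintype_card (α := ZMod P.p), ZMod.card] at h1
    exact h1
  obtain ⟨R, hR⟩ : ∃ R : Submodule.torsionBy ℤ (P.freyCurve⁄(AlgebraicClosure ℚ)).Point P.p,
      R ∉ N := by
    by_contra hcon
    push Not at hcon
    exact hN1 (eq_top_iff.mpr fun x _ => hcon x)
  -- the subgroup of points
  let T := Submodule.torsionBy ℤ (P.freyCurve⁄(AlgebraicClosure ℚ)).Point (P.p : ℤ)
  let N' : AddSubgroup (FreyPt P) := N.toAddSubgroup.map T.toAddSubgroup.subtype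
  have hmem : ∀ x : T, (x : FreyPt P) ∈ N' ↔ x ∈ N := by
    intro x
    constructor
    · rintro ⟨y, hy, hyx⟩
      have : y = x := Subtype.ext hyx
      rw [← this]
      exact hy
    · intro hx
      exact ⟨x, hx, rfl⟩
  have hmem' : ∀ y : FreyPt P, y ∈ N' → ∃ x : T, x ∈ N ∧ (x : FreyPt P) = y := by
    rintro y ⟨x, hx, rfl⟩
    exact ⟨x, hx, rfl⟩
  have hequiv : N ≃ N' :=
    { toFun := fun x => ⟨((x : T) : FreyPt P), (hmem x).mpr x.2⟩
      invFun := fun y => ⟨(hmem' y.1 y.2).choose, (hmem' y.1 y.2).choose_spec.1⟩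
      left_inv := by
        intro x
        apply Subtype.ext
        apply Subtype.ext
        exact (hmem' _ ((hmem x).mpr x.2)).choose_spec.2
      right_inv := by
        intro y
        apply Subtype.ext
        exact (hmem' y.1 y.2).choose_spec.2 }
  have hfinN' : Finite N' := Finite.of_equiv N hequiv
  have hsmul : ∀ (i : ℕ), ((i • R : T) : FreyPt P) = i • (R : FreyPt P) := by
    intro i
    exact AddSubmonoidClass.coe_nsmul R i
  have hiR : ∀ i : ℕ, 0 < i → i < P.p → (i • R : T) ∉ N := by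
    intro i hi0 hip hmem
    apply hR
    have h1 : ((i : ZMod P.p)) ≠ 0 := by
      intro h2
      rw [ZMod.natCast_eq_zero_iff] at h2
      exact absurd (Nat.le_of_dvd hi0 h2) (by omega)
    have h2 : (i : ZMod P.p) • R ∈ N := by
      rwa [Nat.cast_smul_eq_nsmul]
    have h3 := N.smul_mem ((i : ZMod P.p))⁻¹ h2
    rwa [smul_smul, inv_mul_cancel₀ h1, one_smul] at h3
  let hft : Fintype N' := Fintype.ofFinite N'
  refine ⟨{ N := N', fin := hft, dec := Classical.decEq _, card := ?_,
            stable := ?_, tors := ?_, R := R, torsR := ?_, notMem := ?_, cofixed := ?_,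
            span := ?_ }⟩
  · rw [← Nat.card_eq_fintype_card, ← hNcard, Nat.card_congr hequiv]
  · intro σ S hS
    obtain ⟨x, hx, rfl⟩ := hmem' S hS
    exact (hmem (σ • x)).mpr (hN σ x hx)
  · intro S hS
    obtain ⟨x, hx, rfl⟩ := hmem' S hS
    exact (Torsion.mem_torsionBy_nat_iff P.p _).mp x.2
  · exact (Torsion.mem_torsionBy_nat_iff P.p _).mp R.2
  · intro i hi0 hip
    rw [← hsmul, hmem]
    exact hiR i hi0 hip
  · intro σ
    have h1 : ((σ • R - R : T) : FreyPt P) = σ • (R : FreyPt P) - R := rfl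
    rw [← h1, hmem]
    exact hco σ R
  · intro x hx
    have hxT : x ∈ T := (Torsion.mem_torsionBy_nat_iff P.p _).mpr hx
    -- use the quotient of dimension one
    have hq : Module.finrank (ZMod P.p) (T ⧸ N) = 1 := by
      have h1 := Submodule.finrank_quotient_add_finrank N
      rw [hNrank, hrank] at h1
      exact Nat.succ_injective h1
    have hRq : (Submodule.Quotient.mk R : T ⧸ N) ≠ 0 := by
      rw [Ne, Submodule.Quotient.mk_eq_zero]
      exact hR
    obtain ⟨c, hc⟩ := (finrank_eq_one_iff_of_nonzero' _ hRq).mp hq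
      (Submodule.Quotient.mk ⟨x, hxT⟩)
    refine ⟨c.val, ZMod.val_lt c, ?_⟩
    rw [← hsmul]
    have h1 : (((⟨x, hxT⟩ : T) - c.val • R : T) : FreyPt P) = x - ((c.val • R : T) : FreyPt P) :=
      rfl
    rw [← h1, hmem, ← Submodule.Quotient.mk_eq_zero, Submodule.Quotient.mk_sub, ← hc,
      ← Submodule.Quotient.mk_smul, ← Nat.cast_smul_eq_nsmul (ZMod P.p), ZMod.natCast_zmod_val,
      sub_self]

end Fermat.Agent.Isog
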