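import Mathlib
import Fermat.Agent.Isog.Phi

/-!
# The map to the quotient curve is a homomorphism
-/

set_option autoImplicit false
set_option linter.unusedSectionVars false

namespace Fermat.Agent.Isog

open WeierstrassCurve WeierstrassCurve.Affine WeierstrassCurve.Affine.Point
open FermatAgent.ECVal Polynomial

section formulas

variable {F : Type*} [Field F] [DecidableEq F] {W : Affine F}

/-- The polynomial `(a - b)² (x(P+Q) + x(P-Q))`. -/
def sp (W : Affine F) (a b : F) : F :=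
  2 * (a * b) * (a + b) + W.b₂ * (a * b) + W.b₄ * (a + b) + W.b₆

lemma two_mul_xc_add (h2 : (2 : F) ≠ 0) {P Q : W.Point} (hP : P ≠ 0) (hQ : Q ≠ 0)
    (hx : xc P ≠ xc Q) :
    2 * (xc P - xc Q) ^ 2 * xc (P + Q) = sp W (xc P) (xc Q) - eta P * eta Q := by
  have hP2 := eta_sq hP
  have hQ2 := eta_sq hQ
  obtain ⟨x, y, hxy, rfl⟩ := exists_some hP
  obtain ⟨x', y', hxy', rfl⟩ := exists_some hQ
  simp only [xc_some] at hx
  obtain ⟨α, α', hα, h1, h3⟩ := exists_add_psi hxy hxy' hx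
  rw [h1]
  simp only [xc_some, eta_some, sp] at *
  apply mul_left_cancel₀ h2
  linear_combination h3 + hP2 + hQ2

lemma two_mul_xc_sub (h2 : (2 : F) ≠ 0) {P Q : W.Point} (hP : P ≠ 0) (hQ : Q ≠ 0)
    (hx : xc P ≠ xc Q) :
    2 * (xc P - xc Q) ^ 2 * xc (P - Q) = sp W (xc P) (xc Q) + eta P * eta Q := by
  have h := two_mul_xc_add h2 hP (neg_ne_zero.mpr hQ) (by rwa [xc_neg])
  rw [xc_neg, eta_neg, ← sub_eq_add_neg] at h
  rw [h]
  ring

lemma xc_add_sub_xc_sub (h2 : (2 : F) ≠ 0) {P Q : W.Point} (hP : P ≠ 0) (hQ : Q ≠ 0)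
    (hx : xc P ≠ xc Q) :
    (xc P - xc Q) ^ 2 * (xc (P + Q) - xc (P - Q)) = - (eta P * eta Q) := by
  apply mul_left_cancel₀ h2
  linear_combination two_mul_xc_add h2 hP hQ hx - two_mul_xc_sub h2 hP hQ hx

lemma xc_mul {P Q : W.Point} (hP : P ≠ 0) (hQ : Q ≠ 0)
    (hx : xc P ≠ xc Q) :
    (xc P - xc Q) ^ 2 * (xc (P + Q) * xc (P - Q)) =
      (xc P * xc Q) ^ 2 - W.b₄ * (xc P * xc Q) - W.b₆ * (xc P + xc Q) - W.b₈ := by
  obtain ⟨x, y, hxy, rfl⟩ := exists_some hP
  obtain ⟨x', y', hxy', rfl⟩ := exists_some hQ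
  simp only [xc_some] at hx
  obtain ⟨α, α', β, β', hα, hβ, h1, h2, h3, h4⟩ := exists_add_sub hxy hxy' hx
  rw [h1, h2]
  simp only [xc_some]
  exact h4

lemma xc_sum {P Q : W.Point} (hP : P ≠ 0) (hQ : Q ≠ 0)
    (hx : xc P ≠ xc Q) :
    (xc P - xc Q) ^ 2 * (xc (P + Q) + xc (P - Q)) = sp W (xc P) (xc Q) := by
  obtain ⟨x, y, hxy, rfl⟩ := exists_some hP
  obtain ⟨x', y', hxy', rfl⟩ := exists_some hQ
  simp only [xc_some] at hx
  obtain ⟨α, α', β, β', hα, hβ, h1, h2, h3, h4⟩ := exists_add_sub hxy hxy' hx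
  rw [h1, h2]
  simp only [xc_some, sp]
  exact h3

lemma xc_double {S : W.Point} (hS : S ≠ 0) (hη : eta S ≠ 0) :
    eta S ^ 2 * xc (S + S) = xc S ^ 4 - W.b₄ * xc S ^ 2 - 2 * W.b₆ * xc S - W.b₈ := by
  obtain ⟨x, y, hxy, rfl⟩ := exists_some hS
  rcases double_cases hxy with h | h
  · exact absurd h.2 hη
  · obtain ⟨-, α, α', hα, h1, h2⟩ := h
    rw [h1]
    simp only [xc_some, eta_some]
    exact h2

/-- symmetry of the biquadratic form. -/
lemma biquad_symm {P Q S : W.Point} (hP : P ≠ 0) (hQ : Q ≠ 0) (hS : S ≠ 0)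
    (hPQ : xc P ≠ xc Q) (hQS : xc Q ≠ xc S) :
    (xc (P + Q) - xc S) * (xc (P - Q) - xc S) * (xc P - xc Q) ^ 2 =
      (xc P - xc (Q + S)) * (xc P - xc (Q - S)) * (xc Q - xc S) ^ 2 := by
  have h1 := xc_mul hP hQ hPQ
  have h2 := xc_sum hP hQ hPQ
  have h3 := xc_mul hQ hS hQS
  have h4 := xc_sum hQ hS hQS
  simp only [sp] at h2 h4
  linear_combination h1 - xc S * h2 - h3 + xc P * h4

private lemma R_aux {a b c p q r A A' B B' C D b2 b4 b6 b8 : F} (h2 : (2 : F) ≠ 0)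
    (hac : a - c ≠ 0) (hbc : b - c ≠ 0)
    (h1 : 2 * (a - c) ^ 2 * A = (2 * (a * c) * (a + c) + b2 * (a * c) + b4 * (a + c) + b6) - p * r)
    (h1' : 2 * (a - c) ^ 2 * A' = (2 * (a * c) * (a + c) + b2 * (a * c) + b4 * (a + c) + b6) + p * r)
    (h3 : 2 * (b - c) ^ 2 * B = (2 * (b * c) * (b + c) + b2 * (b * c) + b4 * (b + c) + b6) - q * r)
    (h3' : 2 * (b - c) ^ 2 * B' = (2 * (b * c) * (b + c) + b2 * (b * c) + b4 * (b + c) + b6) + q * r)
    (h5 : 2 * (a - b) ^ 2 * C = (2 * (a * b) * (a + b) + b2 * (a * b) + b4 * (a + b) + b6) - p * q)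
    (h6 : r ^ 2 * D = c ^ 4 - b4 * c ^ 2 - 2 * b6 * c - b8)
    (hp : p ^ 2 = 4 * a ^ 3 + b2 * a ^ 2 + 2 * b4 * a + b6)
    (hq : q ^ 2 = 4 * b ^ 3 + b2 * b ^ 2 + 2 * b4 * b + b6)
    (hr : r ^ 2 = 4 * c ^ 3 + b2 * c ^ 2 + 2 * b4 * c + b6)
    (h8 : 4 * b8 = b2 * b6 - b4 ^ 2) :
    (A - B) * (A' - B') * ((a - c) ^ 2 * (b - c) ^ 2) =
      - (r ^ 2 * (a - b) ^ 2 * (C - D)) := by
  have key : ((b - c) ^ 2 * ((2 * (a * c) * (a + c) + b2 * (a * c) + b4 * (a + c) + b6) - p * r) -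
      (a - c) ^ 2 * ((2 * (b * c) * (b + c) + b2 * (b * c) + b4 * (b + c) + b6) - q * r)) *
      ((b - c) ^ 2 * ((2 * (a * c) * (a + c) + b2 * (a * c) + b4 * (a + c) + b6) + p * r) -
      (a - c) ^ 2 * ((2 * (b * c) * (b + c) + b2 * (b * c) + b4 * (b + c) + b6) + q * r)) =
      -(2 * (a - c) ^ 2 * (b - c) ^ 2 *
        (r ^ 2 * ((2 * (a * b) * (a + b) + b2 * (a * b) + b4 * (a + b) + b6) - p * q) -
        2 * (a - b) ^ 2 * (c ^ 4 - b4 * c ^ 2 - 2 * b6 * c - b8))) := by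
    linear_combination (-(r ^ 2) * (b - c) ^ 4) * hp + (-(r ^ 2) * (a - c) ^ 4) * hq +
      (-(4 * a ^ 3 + b2 * a ^ 2 + 2 * b4 * a + b6) * (b - c) ^ 4 -
        (4 * b ^ 3 + b2 * b ^ 2 + 2 * b4 * b + b6) * (a - c) ^ 4 +
        2 * (a - c) ^ 2 * (b - c) ^ 2 *
          (2 * (a * b) * (a + b) + b2 * (a * b) + b4 * (a + b) + b6)) * hr +
      (a - c) ^ 2 * (b - c) ^ 2 * (a - b) ^ 2 * h8
  rw [← h1, ← h1', ← h3, ← h3', ← h5, ← h6] at key
  have h4 : (4 : F) * ((a - c) ^ 2 * (b - c) ^ 2) ≠ 0 := by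
    have : (4 : F) = 2 * 2 := by norm_num
    rw [this]
    exact mul_ne_zero (mul_ne_zero h2 h2) (mul_ne_zero (pow_ne_zero _ hac) (pow_ne_zero _ hbc))
  apply mul_left_cancel₀ h4
  linear_combination key

/-- The `σ`-function identity for four points. -/
lemma four_point (h2 : (2 : F) ≠ 0) {P Q S : W.Point} (hP : P ≠ 0) (hQ : Q ≠ 0) (hS : S ≠ 0)
    (hη : eta S ≠ 0) (hPQ : xc P ≠ xc Q) (hPS : xc P ≠ xc S) (hQS : xc Q ≠ xc S) :
    (xc (P + S) - xc (Q + S)) * (xc (P - S) - xc (Q - S)) *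
      ((xc P - xc S) ^ 2 * (xc Q - xc S) ^ 2) =
      - (eta S ^ 2 * (xc P - xc Q) ^ 2 * (xc (P + Q) - xc (S + S))) := by
  have h8 := W.b_relation
  exact R_aux h2 (sub_ne_zero.mpr hPS) (sub_ne_zero.mpr hQS)
    (two_mul_xc_add h2 hP hS hPS) (two_mul_xc_sub h2 hP hS hPS)
    (two_mul_xc_add h2 hQ hS hQS) (two_mul_xc_sub h2 hQ hS hQS)
    (two_mul_xc_add h2 hP hQ hPQ) (xc_double hS hη) (eta_sq hP) (eta_sq hQ) (eta_sq hS) h8

end formulas

section products

variable {F : Type*} [Field F] [DecidableEq F] {W : Affine F}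
variable {N : AddSubgroup W.Point} [Fintype N] [DecidableEq N] {e e' e'' : F}

/-- doubling on a group of odd order. -/
noncomputable def dbl (hodd : Odd (Fintype.card N)) : N ≃ N :=
  nsmulCoprime (n := 2) (by rw [Nat.card_eq_fintype_card]; exact hodd.coprime_two_right)

lemma dbl_apply (hodd : Odd (Fintype.card N)) (S : N) : dbl hodd S = S + S := by
  rw [dbl, nsmulCoprime_apply, two_nsmul]

lemma coe_dbl (hodd : Odd (Fintype.card N)) (S : N) :
    ((dbl hodd S : N) : W.Point) = (S : W.Point) + S := by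
  rw [dbl_apply, AddSubgroup.coe_add]

lemma card_nz_add_one : (nz N).card + 1 = Fintype.card N := by
  rw [Finset.card_erase_of_mem (Finset.mem_univ _), Finset.card_univ]
  exact Nat.sub_add_cancel Fintype.card_pos

lemma even_card_nz (hodd : Odd (Fintype.card N)) : Even (nz N).card := by
  rw [← card_nz_add_one] at hodd
  exact Nat.not_odd_iff_even.mp (Nat.odd_add_one.mp hodd)

lemma prod_nz_neg (g : W.Point → F) :
    ∏ S ∈ nz N, g (-(S : W.Point)) = ∏ S ∈ nz N, g (S : W.Point) := by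
  refine Finset.prod_nbij' (fun S => -S) (fun S => -S) ?_ ?_ ?_ ?_ ?_
  · intro S hS
    rw [mem_nz] at hS ⊢
    exact neg_ne_zero.mpr hS
  · intro S hS
    rw [mem_nz] at hS ⊢
    exact neg_ne_zero.mpr hS
  · intro S _
    exact neg_neg S
  · intro S _
    exact neg_neg S
  · intro S _
    rw [AddSubgroup.coe_neg]

lemma prod_nz_dbl (hodd : Odd (Fintype.card N)) (g : W.Point → F) :
    ∏ S ∈ nz N, g ((S : W.Point) + (S : W.Point)) = ∏ S ∈ nz N, g (S : W.Point) := by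
  refine Finset.prod_nbij' (fun S => dbl hodd S) (fun S => (dbl hodd).symm S) ?_ ?_ ?_ ?_ ?_
  · intro S hS
    rw [mem_nz] at hS ⊢
    intro h
    apply hS
    rw [dbl_apply] at h
    exact Subtype.ext (eq_zero_of_add_self hodd S.2 (congrArg Subtype.val h))
  · intro S hS
    rw [mem_nz] at hS ⊢
    intro h
    apply hS
    rw [Equiv.symm_apply_eq] at h
    rw [h, dbl_apply, add_zero]
  · intro S _
    exact Equiv.symm_apply_apply _ S
  · intro S _
    exact Equiv.apply_symm_apply _ S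
  · intro S _
    rw [coe_dbl]

lemma xc_ne_of_notMem {P Q : W.Point} (hP : P ≠ 0) (hQ : Q ≠ 0) (h1 : P + Q ≠ 0)
    (h2 : P - Q ≠ 0) : xc P ≠ xc Q := by
  intro h
  rcases eq_or_eq_neg_of_xc_eq hP hQ h with h | h
  · exact h2 (sub_eq_zero.mpr h)
  · apply h1
    rw [h, neg_add_cancel]

lemma xc_ne_mem {P S : W.Point} (hP : P ∉ N) (hS : S ∈ N) (hS0 : S ≠ 0) : xc P ≠ xc S := by
  refine xc_ne_of_notMem (ne_zero_of_notMem hP) hS0 ?_ ?_
  · exact ne_zero_of_notMem (notMem_add hP hS)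
  · rw [sub_eq_add_neg]
    exact ne_zero_of_notMem (notMem_add hP (N.neg_mem hS))

/-- `∏ (x(P+S) - x(Q+S))`. -/
def VN (N : AddSubgroup W.Point) [Fintype N] (P Q : W.Point) : F :=
  ∏ S : N, (xc (P + (S : W.Point)) - xc (Q + (S : W.Point)))

lemma VN_sq (h2 : (2 : F) ≠ 0) (hodd : Odd (Fintype.card N)) {P Q : W.Point} (hP : P ∉ N)
    (hQ : Q ∉ N) (hPQ : xc P ≠ xc Q) :
    VN N P Q ^ 2 * ((den N).eval (xc P) ^ 2 * (den N).eval (xc Q) ^ 2) =
      (xc P - xc Q) ^ (2 * Fintype.card N) * (∏ S ∈ nz N, eta (S : W.Point)) ^ 2 *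
        (den N).eval (xc (P + Q)) := by
  have hP0 := ne_zero_of_notMem hP
  have hQ0 := ne_zero_of_notMem hQ
  -- the product over the nonzero elements
  have h1 : VN N P Q = (xc P - xc Q) *
      ∏ S ∈ nz N, (xc (P + (S : W.Point)) - xc (Q + (S : W.Point))) := by
    rw [VN, ← Finset.mul_prod_erase _ _ (Finset.mem_univ (0 : N))]
    simp
  have h3 : ∏ S ∈ nz N, (xc (P + (S : W.Point)) - xc (Q + (S : W.Point))) =
      ∏ S ∈ nz N, (xc (P - (S : W.Point)) - xc (Q - (S : W.Point))) := by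
    rw [← prod_nz_neg (fun S => xc (P + S) - xc (Q + S))]
    simp only [sub_eq_add_neg]
  have h4 : VN N P Q ^ 2 = (xc P - xc Q) ^ 2 *
      ∏ S ∈ nz N, ((xc (P + (S : W.Point)) - xc (Q + (S : W.Point))) *
        (xc (P - (S : W.Point)) - xc (Q - (S : W.Point)))) := by
    rw [Finset.prod_mul_distrib, ← h3, h1]
    ring
  have h5 : ∏ S ∈ nz N, ((xc (P + (S : W.Point)) - xc (Q + (S : W.Point))) *
        (xc (P - (S : W.Point)) - xc (Q - (S : W.Point))) *
        ((xc P - xc (S : W.Point)) ^ 2 * (xc Q - xc (S : W.Point)) ^ 2)) =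
      ∏ S ∈ nz N, (-1 * (eta (S : W.Point) ^ 2 * (xc P - xc Q) ^ 2 *
        (xc (P + Q) - xc ((S : W.Point) + (S : W.Point))))) := by
    refine Finset.prod_congr rfl fun S hS => ?_
    have hS0 := coe_ne_zero_of_mem_nz N hS
    have hη : eta (S : W.Point) ≠ 0 := fun h =>
      hS0 (eq_zero_of_add_self hodd S.2 ((add_self_eq_zero_iff hS0).mpr h))
    have := four_point h2 hP0 hQ0 hS0 hη hPQ (xc_ne_mem hP S.2 hS0) (xc_ne_mem hQ S.2 hS0)
    rw [this]
    ring
  simp only [Finset.prod_mul_distrib, Finset.prod_pow, Finset.prod_const] at h5 h4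
  rw [(even_card_nz hodd).neg_one_pow, one_mul,
    prod_nz_dbl hodd (fun S => xc (P + Q) - xc S), ← eval_den, ← eval_den, ← eval_den] at h5
  rw [h4, ← card_nz_add_one (N := N)]
  linear_combination (xc P - xc Q) ^ 2 * h5

lemma VN_sub (h2 : (2 : F) ≠ 0) (hs : Split W e e' e'') (hodd : Odd (Fintype.card N))
    {T : W.Point} (hT : IsTwo T e) {P Q : W.Point} (hP : P ∉ N) (hQ : Q ∉ N)
    (hPQ : P + Q ∉ N) (hPQ' : P - Q ∉ N) :
    VN N P Q ^ 2 * ((den N).eval (xc (P - Q)) * (fN N e (P + Q) - fN N e (P - Q))) =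
      - ((∏ S ∈ nz N, eta (S : W.Point)) ^ 2 * (etaN N P * etaN N Q)) := by
  rw [← hs.prod_sub hodd hT hPQ hPQ']
  have h1 : ∏ S : N, (xc (P + Q + (S : W.Point)) - xc (P - Q)) =
      ∏ S : N, (xc ((P + (S : W.Point)) + (Q + (S : W.Point))) -
        xc ((P + (S : W.Point)) - (Q + (S : W.Point)))) := by
    symm
    refine Fintype.prod_equiv (dbl hodd) _ _ fun S => ?_
    rw [coe_dbl]
    congr 2
    · abel
    · abel
  have h3 : ∏ S : N, ((xc (P + (S : W.Point)) - xc (Q + (S : W.Point))) ^ 2 *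
      (xc ((P + (S : W.Point)) + (Q + (S : W.Point))) -
        xc ((P + (S : W.Point)) - (Q + (S : W.Point))))) =
      ∏ S : N, (-1 * (eta (P + (S : W.Point)) * eta (Q + (S : W.Point)))) := by
    refine Finset.prod_congr rfl fun S _ => ?_
    rw [xc_add_sub_xc_sub h2 (ne_zero_of_notMem (notMem_add hP S.2))
      (ne_zero_of_notMem (notMem_add hQ S.2))]
    · ring
    · refine xc_ne_of_notMem (ne_zero_of_notMem (notMem_add hP S.2))
        (ne_zero_of_notMem (notMem_add hQ S.2)) ?_ ?_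
      · rw [show P + (S : W.Point) + (Q + (S : W.Point)) =
          P + Q + ((S : W.Point) + (S : W.Point)) by abel]
        exact ne_zero_of_notMem (notMem_add hPQ (N.add_mem S.2 S.2))
      · rw [add_sub_add_right_eq_sub]
        exact ne_zero_of_notMem hPQ'
  rw [Finset.prod_mul_distrib, Finset.prod_mul_distrib, Finset.prod_pow, Finset.prod_mul_distrib,
    Finset.prod_const, Finset.card_univ, hodd.neg_one_pow, ← h1] at h3
  have hμ := prod_eta_ne_zero (W := W) (N := N) hodd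
  rw [VN, h3, etaN, etaN]
  field_simp

lemma den_mul_den (hs : Split W e e' e'') (hodd : Odd (Fintype.card N))
    {T : W.Point} (hT : IsTwo T e) {P Q : W.Point} (hP : P ∉ N) (hQ : Q ∉ N)
    (hPQ : xc P ≠ xc Q) :
    (xc P - xc Q) ^ (2 * Fintype.card N) *
      ((den N).eval (xc (P + Q)) * (den N).eval (xc (P - Q))) =
      (fN N e P - fN N e Q) ^ 2 * ((den N).eval (xc P) ^ 2 * (den N).eval (xc Q) ^ 2) := by
  have hP0 := ne_zero_of_notMem hP
  have hQ0 := ne_zero_of_notMem hQ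
  have h1 := hs.prod_sub hodd hT hQ hP
  have h3 : ∏ S : N, (xc (Q + (S : W.Point)) - xc P) = (xc Q - xc P) *
      ∏ S ∈ nz N, (xc (Q + (S : W.Point)) - xc P) := by
    rw [← Finset.mul_prod_erase _ _ (Finset.mem_univ (0 : N))]
    simp
  have h4 : ∏ S ∈ nz N, (xc (Q + (S : W.Point)) - xc P) =
      ∏ S ∈ nz N, (xc P - xc (Q + (S : W.Point))) := by
    have h5 : ∀ S : N, xc (Q + (S : W.Point)) - xc P = -1 * (xc P - xc (Q + (S : W.Point))) :=
      fun S => by ring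
    rw [Finset.prod_congr rfl fun S _ => h5 S, Finset.prod_mul_distrib, Finset.prod_const,
      (even_card_nz hodd).neg_one_pow, one_mul]
  have h6 : ∏ S ∈ nz N, (xc P - xc (Q + (S : W.Point))) =
      ∏ S ∈ nz N, (xc P - xc (Q - (S : W.Point))) := by
    rw [← prod_nz_neg (fun S => xc P - xc (Q + S))]
    simp only [sub_eq_add_neg]
  have h7 : ∏ S ∈ nz N, ((xc (P + Q) - xc (S : W.Point)) * (xc (P - Q) - xc (S : W.Point)) *
      (xc P - xc Q) ^ 2) = ∏ S ∈ nz N, ((xc P - xc (Q + (S : W.Point))) *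
        (xc P - xc (Q - (S : W.Point))) * (xc Q - xc (S : W.Point)) ^ 2) := by
    refine Finset.prod_congr rfl fun S hS => ?_
    have hS0 := coe_ne_zero_of_mem_nz N hS
    exact biquad_symm hP0 hQ0 hS0 hPQ (xc_ne_mem hQ S.2 hS0)
  rw [Finset.prod_mul_distrib, Finset.prod_mul_distrib, Finset.prod_const,
    Finset.prod_mul_distrib, Finset.prod_mul_distrib, Finset.prod_pow, ← h6, ← h4, ← eval_den,
    ← eval_den, ← eval_den] at h7
  rw [h3] at h1
  rw [← card_nz_add_one, mul_add, pow_add, pow_mul]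
  linear_combination (xc P - xc Q) ^ 2 * h7 +
    ((den N).eval (xc Q)) ^ 2 * ((xc Q - xc P) * ∏ S ∈ nz N, (xc (Q + (S : W.Point)) - xc P) +
      (den N).eval (xc P) * (fN N e Q - fN N e P)) * h1

/-- The `η`-identity on the quotient. -/
lemma fN_add_sub_fN_sub (hs : Split W e e' e'') (hodd : Odd (Fintype.card N))
    {P Q : W.Point} (hP : P ∉ N) (hQ : Q ∉ N)
    (hPQ : P + Q ∉ N) (hPQ' : P - Q ∉ N) :
    (fN N e P - fN N e Q) ^ 2 * (fN N e (P + Q) - fN N e (P - Q)) =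
      - (etaN N P * etaN N Q) := by
  obtain ⟨T, hT⟩ := hs.exists_two
  have h2 := hs.two
  have hx : xc P ≠ xc Q := xc_ne_of_notMem (ne_zero_of_notMem hP) (ne_zero_of_notMem hQ)
    (ne_zero_of_notMem hPQ) (ne_zero_of_notMem hPQ')
  have h1 := VN_sq h2 hodd hP hQ hx
  have h3 := VN_sub h2 hs hodd hT hP hQ hPQ hPQ'
  have h4 := den_mul_den hs hodd hT hP hQ hx
  have hμ := prod_eta_ne_zero (W := W) (N := N) hodd
  have hd : (∏ S ∈ nz N, eta (S : W.Point)) ^ 2 *
      ((den N).eval (xc P) ^ 2 * (den N).eval (xc Q) ^ 2) ≠ 0 :=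
    mul_ne_zero (pow_ne_zero _ hμ) (mul_ne_zero (pow_ne_zero _ (eval_den_ne_zero hP))
      (pow_ne_zero _ (eval_den_ne_zero hQ)))
  apply mul_left_cancel₀ hd
  linear_combination (-(∏ S ∈ nz N, eta (S : W.Point)) ^ 2 *
    (fN N e (P + Q) - fN N e (P - Q))) * h4 -
    ((den N).eval (xc (P - Q)) * (fN N e (P + Q) - fN N e (P - Q))) * h1 +
    ((den N).eval (xc P) ^ 2 * (den N).eval (xc Q) ^ 2) * h3

end products

namespace Target

variable {F : Type*} [Field F] [DecidableEq F] {W W' : Affine F}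
variable {N : AddSubgroup W.Point} [Fintype N] [DecidableEq N] {e e' e'' E E' E'' u : F}
variable (t : Target N W' e e' e'' E E' E'' u)
include t

lemma xc_phi_add {P Q : W.Point} (hP : P ∉ N) (hQ : Q ∉ N) (hPQ : P + Q ∉ N)
    (hPQ' : P - Q ∉ N) :
    t.phi P + t.phi Q ≠ 0 ∧ t.phi P - t.phi Q ≠ 0 ∧
      xc (t.phi (P + Q)) = xc (t.phi P + t.phi Q) ∧
      xc (t.phi (P - Q)) = xc (t.phi P - t.phi Q) := by
  obtain ⟨h1, h2, h3⟩ := t.phi_add_sub hP hQ hPQ hPQ'
  refine ⟨h1, h2, ?_⟩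
  rcases h3 with h3 | h3
  · exact h3
  · have hne := t.xc_phi_ne hP hQ hPQ hPQ'
    have h4 := xc_add_sub_xc_sub t.tgt.two (t.phi_ne hP) (t.phi_ne hQ) hne
    have h5 := fN_add_sub_fN_sub t.src t.odd hP hQ hPQ hPQ'
    rw [← h3.1, ← h3.2, t.xc_phi hP, t.xc_phi hQ, t.xc_phi hPQ, t.xc_phi hPQ', t.eta_phi hP,
      t.eta_phi hQ] at h4
    -- so `η(P) η(Q) = 0`, and the two values agree
    have h6 : (fN N e P - fN N e Q) ^ 2 * (fN N e (P + Q) - fN N e (P - Q)) = 0 := by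
      have h7 : 2 * u ^ 6 * ((fN N e P - fN N e Q) ^ 2 *
          (fN N e (P + Q) - fN N e (P - Q))) = 0 := by
        linear_combination -h4 + u ^ 6 * h5
      exact (mul_eq_zero.mp h7).resolve_left
        (mul_ne_zero t.tgt.two (pow_ne_zero _ t.u_ne))
    have h7 : fN N e P - fN N e Q ≠ 0 := by
      intro h
      apply hne
      rw [t.xc_phi hP, t.xc_phi hQ]
      linear_combination u ^ 2 * h
    have h8 := (mul_eq_zero.mp h6).resolve_left (pow_ne_zero _ h7)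
    have h9 : xc (t.phi (P + Q)) = xc (t.phi (P - Q)) := by
      rw [t.xc_phi hPQ, t.xc_phi hPQ']
      linear_combination u ^ 2 * h8
    exact ⟨h9.trans h3.2, h9.symm.trans h3.1⟩

lemma phi_two {T : W.Point} (hT : T + T = 0) : t.phi T + t.phi T = 0 := by
  have h1 : -T = T := (eq_neg_of_add_eq_zero_left hT).symm
  have h2 := t.phi_neg T
  rw [h1] at h2
  nth_rewrite 1 [h2]
  exact neg_add_cancel _

lemma phi_double (Q : W.Point) : t.phi (Q + Q) = t.phi Q + t.phi Q := by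
  by_cases hQ : Q ∈ N
  · rw [t.phi_of_mem hQ, t.phi_of_mem (N.add_mem hQ hQ), add_zero]
  by_cases h2Q : Q + Q ∈ N
  · -- `Q = T + S`
    obtain ⟨S, hS⟩ := (dbl t.odd).surjective ⟨Q + Q, h2Q⟩
    have hS' : (S : W.Point) + (S : W.Point) = Q + Q := by
      rw [← coe_dbl t.odd, hS]
    have h1 : (Q - S) + (Q - S) = 0 := by
      rw [show (Q - (S : W.Point)) + (Q - (S : W.Point)) =
        (Q + Q) - ((S : W.Point) + (S : W.Point)) by abel, hS', sub_self]
    have h2 := t.phi_two h1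
    have h3 : t.phi (Q - S) = t.phi Q := by
      rw [sub_eq_add_neg]
      exact t.phi_add_mem Q (N.neg_mem S.2)
    rw [t.phi_of_mem h2Q, ← h3, h2]
  -- the generic case
  have gen : ∀ R : W.Point, R ∉ N → R + R ∉ N → R + R + R ∉ N →
      t.phi (R + R) = t.phi R + t.phi R := by
    intro R hR h2R h3R
    have h1 : R + R - R = R := add_sub_cancel_right R R
    obtain ⟨-, h4, -, h5⟩ := t.xc_phi_add h2R hR h3R (by rw [h1]; exact hR)
    rw [h1] at h5
    rcases eq_or_eq_neg_of_xc_eq (t.phi_ne hR) h4 h5 with h6 | h6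
    · exact sub_eq_iff_eq_add.mp h6.symm
    · exfalso
      apply t.phi_ne h2R
      rw [neg_sub, eq_comm, sub_eq_self] at h6
      exact h6
  by_cases h3Q : Q + Q + Q ∈ N
  · obtain ⟨T, hT⟩ := t.src.exists_two
    have hTN := hT.notMem t.odd
    have hTT := hT.add_self
    have hQT : Q + T ∉ N := by
      intro h
      apply h2Q
      have h1 := N.add_mem h h
      rwa [show Q + T + (Q + T) = Q + Q + (T + T) by abel, hTT, add_zero] at h1
    have h2QT : Q + T + (Q + T) = Q + Q := by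
      rw [show Q + T + (Q + T) = Q + Q + (T + T) by abel, hTT, add_zero]
    have h3QT : Q + T + (Q + T) + (Q + T) ∉ N := by
      rw [h2QT, ← add_assoc]
      intro h
      apply hTN
      have h1 := N.sub_mem h h3Q
      rwa [add_sub_cancel_left] at h1
    have h1 := gen (Q + T) hQT (by rw [h2QT]; exact h2Q) h3QT
    have hQT' : Q - T ∉ N := by
      rw [sub_eq_add_neg, hT.neg]
      exact hQT
    obtain ⟨h4, -, h5, -⟩ := t.xc_phi_add hQ hTN hQT hQT'
    have hφT := t.phi_two hTT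
    have h6 : t.phi (Q + Q) = t.phi Q + t.phi Q ∨
        t.phi (Q + Q) = -(t.phi Q + t.phi Q) := by
      rw [← h2QT, h1]
      rcases eq_or_eq_neg_of_xc_eq (t.phi_ne hQT) h4 h5 with h6 | h6
      · left
        rw [h6, show t.phi Q + t.phi T + (t.phi Q + t.phi T) =
          t.phi Q + t.phi Q + (t.phi T + t.phi T) by abel, hφT, add_zero]
      · right
        rw [h6, ← neg_add, show t.phi Q + t.phi T + (t.phi Q + t.phi T) =
          t.phi Q + t.phi Q + (t.phi T + t.phi T) by abel, hφT, add_zero]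
    have h7 : t.phi (Q + Q) = - t.phi Q := by
      rw [← t.phi_neg]
      have h8 : Q + Q = -Q + (Q + Q + Q) := by abel
      rw [h8, t.phi_add_mem _ h3Q]
    rcases h6 with h6 | h6
    · exact h6
    · exfalso
      apply t.phi_ne hQ
      rw [h7] at h6
      have h8 := neg_injective h6
      exact left_eq_add.mp h8
  · exact gen Q hQ h2Q h3Q

lemma phi_add_aux {P Q : W.Point} (hP : P ∉ N) (hQ : Q ∉ N) (hPQ : P + Q ∉ N)
    (hPQ' : P - Q ∉ N) (h2Q : Q + Q ∉ N) : t.phi (P + Q) = t.phi P + t.phi Q := by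
  by_cases hPQQ : P + Q + Q ∈ N
  · -- `P = -2Q` modulo `N`
    have h1 : t.phi P = -(t.phi Q + t.phi Q) := by
      have h2 : P = -(Q + Q) + (P + Q + Q) := by abel
      rw [h2, t.phi_add_mem _ hPQQ, t.phi_neg, t.phi_double]
    have h3 : t.phi (P + Q) = - t.phi Q := by
      have h2 : P + Q = -Q + (P + Q + Q) := by abel
      rw [h2, t.phi_add_mem _ hPQQ, t.phi_neg]
    rw [h1, h3]
    abel
  obtain ⟨h1, -, h2, -⟩ := t.xc_phi_add hP hQ hPQ hPQ'
  rcases eq_or_eq_neg_of_xc_eq (t.phi_ne hPQ) h1 h2 with h3 | h3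
  · exact h3
  by_cases h2PQ : P + Q + (P + Q) ∈ N
  · have h4 := t.phi_double (P + Q)
    rw [t.phi_of_mem h2PQ] at h4
    have h5 : -t.phi (P + Q) = t.phi (P + Q) := (eq_neg_of_add_eq_zero_left h4.symm).symm
    rw [← h5, h3, neg_neg]
  · exfalso
    have hsub : P + Q - Q ∉ N := by rw [add_sub_cancel_right]; exact hP
    obtain ⟨-, -, h4, -⟩ := t.xc_phi_add hPQ hQ hPQQ hsub
    rw [h3] at h4
    have h5 : -(t.phi P + t.phi Q) + t.phi Q = - t.phi P := by abel
    rw [h5, xc_neg] at h4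
    refine t.xc_phi_ne hPQQ hP ?_ ?_ h4
    · rwa [show P + Q + Q + P = P + Q + (P + Q) by abel]
    · rwa [show P + Q + Q - P = Q + Q by abel]

theorem phi_add (P Q : W.Point) : t.phi (P + Q) = t.phi P + t.phi Q := by
  by_cases hP : P ∈ N
  · rw [t.phi_of_mem hP, zero_add, add_comm, t.phi_add_mem _ hP]
  by_cases hQ : Q ∈ N
  · rw [t.phi_of_mem hQ, add_zero, t.phi_add_mem _ hQ]
  by_cases hPQ : P + Q ∈ N
  · have h1 : t.phi P = - t.phi Q := by
      have h2 : P = -Q + (P + Q) := by abel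
      rw [h2, t.phi_add_mem _ hPQ, t.phi_neg]
    rw [t.phi_of_mem hPQ, h1, neg_add_cancel]
  by_cases hPQ' : P - Q ∈ N
  · have h1 : t.phi P = t.phi Q := by
      have h2 : P = Q + (P - Q) := by abel
      rw [h2, t.phi_add_mem _ hPQ']
    have h2 : P + Q = Q + Q + (P - Q) := by abel
    rw [h2, t.phi_add_mem _ hPQ', t.phi_double, h1]
  by_cases h2Q : Q + Q ∈ N
  · by_cases h2P : P + P ∈ N
    · -- everything is two-torsion
      obtain ⟨h1, -, h2, -⟩ := t.xc_phi_add hP hQ hPQ hPQ'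
      rcases eq_or_eq_neg_of_xc_eq (t.phi_ne hPQ) h1 h2 with h3 | h3
      · exact h3
      · have h4 := t.phi_double (P + Q)
        have h2PQ : P + Q + (P + Q) ∈ N := by
          rw [show P + Q + (P + Q) = P + P + (Q + Q) by abel]
          exact N.add_mem h2P h2Q
        rw [t.phi_of_mem h2PQ] at h4
        have h5 : -t.phi (P + Q) = t.phi (P + Q) := (eq_neg_of_add_eq_zero_left h4.symm).symm
        rw [← h5, h3, neg_neg]
    · rw [add_comm P Q, add_comm (t.phi P)]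
      exact t.phi_add_aux hQ hP (by rwa [add_comm]) (fun h => hPQ' (by
        rw [← neg_sub]; exact N.neg_mem h)) h2P
  · exact t.phi_add_aux hP hQ hPQ hPQ' h2Q

/-- The isogeny as a group homomorphism. -/
noncomputable def hom : W.Point →+ W'.Point where
  toFun := t.phi
  map_zero' := t.phi_of_mem N.zero_mem
  map_add' := t.phi_add

@[simp] lemma hom_apply (P : W.Point) : t.hom P = t.phi P := rfl

lemma ker_hom : t.hom.ker = N := by
  ext P
  rw [AddMonoidHom.mem_ker, t.hom_apply, t.phi_eq_zero_iff]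

end Target

/-- The isogeny with kernel `N`, from explicit data. -/
theorem exists_hom {F : Type*} [Field F] [DecidableEq F] {W W' : Affine F}
    {N : AddSubgroup W.Point} [Fintype N] [DecidableEq N] {e e' e'' E E' E'' u : F}
    (hs : Split W e e' e'') (hodd : Odd (Fintype.card N)) (hs' : Split W' E E' E'')
    (hu : u ≠ 0) {T' T'' : W.Point} (hT' : IsTwo T' e') (hT'' : IsTwo T'' e'')
    (h1 : E' - E = u ^ 2 * fN N e T') (h2 : E'' - E = u ^ 2 * fN N e T'') :
    ∃ φ : W.Point →+ W'.Point, φ.ker = N ∧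
      ∀ P ∉ N, xc (φ P) = E + u ^ 2 * fN N e P ∧ eta (φ P) = u ^ 3 * etaN N P := by
  have t : Target N W' e e' e'' E E' E'' u :=
    { src := hs, odd := hodd, tgt := hs', u_ne := hu,
      h' := fun T hT => by rw [hT.eq hT']; exact h1
      h'' := fun T hT => by rw [hT.eq hT'']; exact h2 }
  exact ⟨t.hom, t.ker_hom, fun P hP => ⟨t.xc_phi hP, t.eta_phi hP⟩⟩

end Fermat.Agent.Isog
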